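/-
P4 / Layer C5-d (final shape): an invariant idele whose norm is not killed by the reciprocity
character.

Let `L / ℚ` be Galois with group `G`, containing a primitive `p^(i+2)`-th root of unity `ζ`, and
`N ≤ G` a subgroup fixing the `i`-th layer of the cyclotomic `ℤ_p`-extension of `ℚ` but not the
`(i+1)`-st.  Then there is an `N`-invariant idele `X` of `L` with
`psiQ p (i+1) (N_{L^N/ℚ} X) ≠ 1` (`exists_invariant_idele_psiQ_ne_one`).

Ingredients: the cyclotomic character `PsiNonSplit.cycloChar`; the subgroup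
`N₁ = ker (g ↦ χ(g)^(p-1))` of index `p` in `N` (`PsiNonSplit.card_quotient_ker_psiN`); non-split
places of the layer `L^{N₁} / L^N` lifted to `L` (`PsiNonSplit.exists_place_mem_decompGroup_notMem`,
from AR3); Frobenius on roots of unity (AR4) and the norm of a prime idele (AR2).
-/
import Fermat.Agent.Lib.CFT.Global.Layer
import Fermat.Agent.Lib.CFT.Global.NonSplit
import Fermat.Agent.Lib.CFT.Global.Frobenius
import Fermat.Agent.Lib.CFT.Global.PrimeIdele
import Fermat.Agent.Lib.CFT.Global.Recip.PsiDefs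

set_option autoImplicit false
set_option linter.style.haveILetI false
set_option linter.unusedSectionVars false

open scoped TensorProduct

namespace Fermat.Agent.CFT.Global

noncomputable section

namespace PsiNonSplit

section Char

variable {L : Type} [Field L] {G : Type} [Group G] [MulSemiringAction G L] {M : ℕ} [NeZero M]
  {ζ : L}

/-- the cyclotomic character attached to a primitive `M`-th root of unity -/
def cycloChar (hζ : IsPrimitiveRoot ζ M) : G →* (ZMod M)ˣ :=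
  (hζ.autToPow ℤ).comp (MulSemiringAction.toAlgAut G ℤ L)

lemma cycloChar_spec (hζ : IsPrimitiveRoot ζ M) (g : G) :
    ζ ^ ((cycloChar hζ g : (ZMod M)ˣ) : ZMod M).val = g • ζ :=
  hζ.autToPow_spec ℤ (MulSemiringAction.toAlgAut G ℤ L g)

lemma natCast_eq_cycloChar (hζ : IsPrimitiveRoot ζ M) {g : G} {c : ℕ} (h : g • ζ = ζ ^ c) :
    (c : ZMod M) = ((cycloChar hζ g : (ZMod M)ˣ) : ZMod M) := by
  have h1 : ζ ^ c = ζ ^ ((cycloChar hζ g : (ZMod M)ˣ) : ZMod M).val := by
    rw [cycloChar_spec, h]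
  have h2 : ζ ^ (c % M) = ζ ^ ((cycloChar hζ g : (ZMod M)ˣ) : ZMod M).val := by
    rw [← h1, ← pow_eq_pow_mod c hζ.pow_eq_one]
  have h3 := hζ.pow_inj (Nat.mod_lt _ (NeZero.pos M)) (ZMod.val_lt _) h2
  rw [← ZMod.natCast_mod, h3, ZMod.natCast_zmod_val]

end Char

section Card

variable (p : ℕ) [hp : Fact p.Prime]

/-- the kernel of the reduction `(ℤ/p^(k+1))ˣ → (ℤ/p^k)ˣ` has order `p` for `k ≥ 1` -/
lemma card_ker_unitsMap (k : ℕ) (hk : 1 ≤ k) :
    Nat.card (ZMod.unitsMap (pow_dvd_pow p (Nat.le_succ k))).ker = p := by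
  haveI : NeZero (p ^ (k + 1)) := ⟨pow_ne_zero _ hp.out.ne_zero⟩
  haveI : NeZero (p ^ k) := ⟨pow_ne_zero _ hp.out.ne_zero⟩
  set f := ZMod.unitsMap (pow_dvd_pow p (Nat.le_succ k)) with hf
  have hsurj : Function.Surjective f := ZMod.unitsMap_surjective _
  have h1 : Nat.card (ZMod (p ^ (k + 1)))ˣ = Nat.card ((ZMod (p ^ (k + 1)))ˣ ⧸ f.ker) *
      Nat.card f.ker := Subgroup.card_eq_card_quotient_mul_card_subgroup _
  have h2 : Nat.card ((ZMod (p ^ (k + 1)))ˣ ⧸ f.ker) = Nat.card (ZMod (p ^ k))ˣ :=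
    Nat.card_congr (QuotientGroup.quotientKerEquivOfSurjective f hsurj).toEquiv
  rw [h2, Nat.card_eq_fintype_card, Nat.card_eq_fintype_card, ZMod.card_units_eq_totient,
    ZMod.card_units_eq_totient, Nat.totient_prime_pow_succ hp.out] at h1
  obtain ⟨k', rfl⟩ : ∃ k', k = k' + 1 := ⟨k - 1, by omega⟩
  rw [Nat.totient_prime_pow_succ hp.out] at h1
  have hpos : 0 < p ^ k' * (p - 1) :=
    Nat.mul_pos (pow_pos hp.out.pos _) (Nat.sub_pos_of_lt hp.out.one_lt)
  have h3 : p ^ k' * (p - 1) * p = p ^ k' * (p - 1) * Nat.card f.ker := by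
    rw [← h1, pow_succ]
    ring
  exact (Nat.eq_of_mul_eq_mul_left hpos h3).symm

end Card

section Index

variable {p : ℕ} [hp : Fact p.Prime] {L : Type} [Field L] {G : Type} [Group G]
  [MulSemiringAction G L]

instance neZero_prime_pow (k : ℕ) : NeZero (p ^ k) := ⟨pow_ne_zero _ hp.out.ne_zero⟩

/-- `g ↦ χ(g)^(p-1)` on the subgroup `N` -/
def psiN {k : ℕ} {ζ : L} (hζ : IsPrimitiveRoot ζ (p ^ k)) (N : Subgroup G) :
    ↥N →* (ZMod (p ^ k))ˣ :=
  ((powMonoidHom (p - 1)).comp (cycloChar hζ)).comp N.subtype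

lemma coe_psiN {k : ℕ} {ζ : L} (hζ : IsPrimitiveRoot ζ (p ^ k)) (N : Subgroup G) (g : ↥N) :
    ((psiN hζ N g : (ZMod (p ^ k))ˣ) : ZMod (p ^ k)) =
      ((cycloChar hζ (g : G) : (ZMod (p ^ k))ˣ) : ZMod (p ^ k)) ^ (p - 1) := by
  simp [psiN]

lemma psiN_eq_one_iff {k : ℕ} {ζ : L} (hζ : IsPrimitiveRoot ζ (p ^ k)) (N : Subgroup G) (g : ↥N)
    {c : ℕ} (hc : (g : G) • ζ = ζ ^ c) :
    psiN hζ N g = 1 ↔ (c : ZMod (p ^ k)) ^ (p - 1) = 1 := by
  rw [natCast_eq_cycloChar hζ hc, ← coe_psiN, Units.val_eq_one]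

variable [Finite G]

theorem card_quotient_ker_psiN (i : ℕ) {ζ : L} (hζ : IsPrimitiveRoot ζ (p ^ (i + 2)))
    (N : Subgroup G)
    (hN0 : ∀ g ∈ N, ∀ c : ℕ, g • ζ = ζ ^ c → ((c : ZMod (p ^ (i + 1))) ^ (p - 1) = 1))
    (hN1 : ∃ g ∈ N, ∃ c : ℕ, g • ζ = ζ ^ c ∧ ((c : ZMod (p ^ (i + 2))) ^ (p - 1) ≠ 1)) :
    Nat.card (↥N ⧸ (psiN hζ N).ker) = p := by
  set f := ZMod.unitsMap (pow_dvd_pow p (Nat.le_succ (i + 1))) with hf
  have hR : Nat.card f.ker = p := card_ker_unitsMap p (i + 1) (Nat.le_add_left 1 i)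
  have hle : (psiN hζ N).range ≤ f.ker := by
    rintro _ ⟨g, rfl⟩
    rw [MonoidHom.mem_ker]
    apply Units.ext
    have hspec := (cycloChar_spec hζ (g : G)).symm
    have h1 := hN0 g g.2 _ hspec
    rw [hf, ZMod.unitsMap_def, Units.coe_map, Units.val_one, MonoidHom.coe_coe, coe_psiN, map_pow,
      ZMod.castHom_apply, ← ZMod.natCast_val]
    exact h1
  have hne : (psiN hζ N).range ≠ ⊥ := by
    obtain ⟨g, hg, c, hc, hne⟩ := hN1
    intro hbot
    apply hne
    rw [← psiN_eq_one_iff hζ N ⟨g, hg⟩ hc]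
    have : psiN hζ N ⟨g, hg⟩ ∈ (psiN hζ N).range := ⟨_, rfl⟩
    rw [hbot, Subgroup.mem_bot] at this
    exact this
  have hcard : Nat.card (psiN hζ N).range = p := by
    have hdvd := Subgroup.card_dvd_of_le hle
    rw [hR] at hdvd
    rcases (Nat.dvd_prime hp.out).1 hdvd with h | h
    · exact absurd (Subgroup.card_eq_one.1 h) hne
    · exact h
  exact (Nat.card_congr (QuotientGroup.quotientKerEquivRange (psiN hζ N)).toEquiv).trans hcard

end Index

section Under

variable {q : ℕ} [Fact q.Prime] {K L : Type} [Field K] [NumberField K] [Field L] [NumberField L]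
  {H Γ : Type} [Group H] [Group Γ] [MulSemiringAction H K] [MulSemiringAction Γ L]

/-- equivariance of `Place.under` for compatible actions -/
lemma under_smul_of_equivariant (f : K →+* L) (γ : Γ) (h : H)
    (hf : ∀ x : K, f (h • x) = γ • f x) (w : Place q L) :
    Place.under f (γ • w) = h • Place.under f w := by
  have hf' : ∀ x : K, f (h⁻¹ • x) = γ⁻¹ • f x := by
    intro x
    rw [eq_inv_smul_iff, ← hf, smul_inv_smul]
  have hcomp : f.comp (MulSemiringAction.toRingHom H K h⁻¹) =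
      (MulSemiringAction.toRingHom Γ L γ⁻¹).comp f := RingHom.ext hf'
  apply MaximalSpectrum.ext
  ext x
  rw [Place.mem_under_iff, Place.mem_smul_iff, Place.mem_smul_iff, Place.mem_under_iff,
    SL.smul_def, SL.smul_def, ← SL.map_comp_apply, ← SL.map_comp_apply, hcomp]

end Under

section Sub

variable {q : ℕ} [Fact q.Prime] {L : Type} [Field L] [NumberField L] {G : Type} [Group G]
  [MulSemiringAction G L]

/-- the action of a subgroup on the places is the restriction of the action of the group -/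
lemma subgroup_smul_place (N : Subgroup G) (n : ↥N) (w : Place q L) : n • w = (n : G) • w := rfl

end Sub

section Lift

variable {p : ℕ} [hp : Fact p.Prime] {L : Type} [Field L] [NumberField L] {G : Type} [Group G]
  [Finite G] [MulSemiringAction G L] [FaithfulSMul G L]

/-- **Non-split places for a layer of degree `p` inside `L`**: if `V ⊲ N ≤ G` with `N ⧸ V` of odd
prime order `p`, then outside any finite set of primes there is a place `w` of `L` whose
decomposition group meets `N` outside `V` (the place of `L^N` below `w` does not split in `L^V`). -/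
theorem exists_place_mem_decompGroup_notMem (hp2 : p ≠ 2) (N : Subgroup G) (V : Subgroup ↥N)
    [V.Normal] (hidx : Nat.card (↥N ⧸ V) = p) (T : Finset Nat.Primes) :
    ∃ q : Nat.Primes, q ∉ T ∧ ∃ w : Place (q : ℕ) L, ∃ g : ↥N,
      (g : G) ∈ decompGroup G w ∧ g ∉ V := by
  classical
  letI act := quotientFixedFieldAction ↥N L V
  haveI hfaith := faithfulSMul_quotient_fixedSubfield ↥N L V
  obtain ⟨q, hqT, wF, hwF⟩ := exists_nonsplit_place
    (FixedPoints.subfield (↥N ⧸ V) (FixedPoints.subfield V L)) (L := FixedPoints.subfield V L)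
    (G := ↥N ⧸ V) hp2 hidx T
  refine ⟨q, hqT, ?_⟩
  obtain ⟨w, hw⟩ := Place.under_surjective (q := (q : ℕ))
    (algebraMap (FixedPoints.subfield V L) L) wF
  -- an element of `N` outside `V`
  obtain ⟨g₀, hg₀⟩ : ∃ g₀ : ↥N, g₀ ∉ V := by
    by_contra hall
    push Not at hall
    have htop : V = ⊤ := eq_top_iff.2 fun g _ => hall g
    have h1 : Nat.card (↥N ⧸ V) = 1 := by
      rw [htop]
      exact Nat.card_eq_one_iff_unique.2 ⟨QuotientGroup.subsingleton_quotient_top, ⟨1⟩⟩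
    rw [hidx] at h1
    exact hp.out.one_lt.ne' h1
  -- `g₀ • w` lies over the same place of the fixed field of `V`
  have e := under_smul_of_equivariant (q := (q : ℕ)) (algebraMap (FixedPoints.subfield V L) L) g₀
    ((g₀ : ↥N) : ↥N ⧸ V) (fun x => coe_quotient_smul ↥N L V g₀ x) w
  have h1 : Place.under (algebraMap (FixedPoints.subfield V L) L) (((g₀ : ↥N) : G) • w) =
      Place.under (algebraMap (FixedPoints.subfield V L) L) w := by
    refine Eq.trans ?_ (e.trans ?_)
    · rfl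
    · rw [hw]
      exact hwF _
  obtain ⟨v, hv⟩ := Place.exists_smul_eq_of_under_eq (K := FixedPoints.subfield V L) (G := ↥V)
    h1.symm
  have hv' : (((v : ↥N) : G)) • w = ((g₀ : ↥N) : G) • w := hv
  refine ⟨w, (v : ↥N)⁻¹ * g₀, ?_, ?_⟩
  · rw [mem_decompGroup_iff]
    have h3 : (((v : ↥N)⁻¹ * g₀ : ↥N) : G) = ((v : ↥N) : G)⁻¹ * ((g₀ : ↥N) : G) := rfl
    rw [h3, mul_smul, ← hv', inv_smul_smul]
  · intro hmem
    apply hg₀
    have := V.mul_mem v.2 hmem
    rwa [mul_inv_cancel_left] at this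

end Lift

section Aux

variable {K L : Type} [Field K] [NumberField K] [Field L] [NumberField L]

lemma map_single' (f : K →+* L) (q : Nat.Primes) (u : (SL (q : ℕ) K)ˣ) :
    FinIdele.map f (FinIdele.single q u) = FinIdele.single q (SL.unitsMap (q : ℕ) f u) := by
  ext r
  rw [FinIdele.comp_map]
  by_cases h : r = q
  · subst h
    rw [FinIdele.comp_single_same, FinIdele.comp_single_same]
  · rw [FinIdele.comp_single_of_ne h, FinIdele.comp_single_of_ne h, map_one]

lemma unitsOfQ_eq_scalarUnits (q : ℕ) [Fact q.Prime] (x : ℚ_[q]ˣ) :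
    unitsOfQ q x = SL.scalarUnits q ℚ x := by
  apply Units.ext
  change (ridQ q).symm (x : ℚ_[q]) = algebraMap ℚ_[q] (SL q ℚ) (x : ℚ_[q])
  rw [AlgEquiv.symm_apply_eq, AlgEquiv.commutes]
  rfl

lemma valuation_padicPrimeUnit_pow (q : ℕ) [hq : Fact q.Prime] (f : ℕ) :
    (((padicPrimeUnit q ^ f : ℚ_[q]ˣ) : ℚ_[q])).valuation = f := by
  rw [Units.val_pow_eq_pow_val, coe_padicPrimeUnit, Padic.valuation_pow, Padic.valuation_p]
  simp

end Aux

end PsiNonSplit

open PsiNonSplit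

/-- **C5-d, final shape**: let `L / ℚ` be Galois with group `G`, containing a primitive
`p^(i+2)`-th root of unity `ζ`, and `N ≤ G` a subgroup fixing the `i`-th layer `ℚ_i` of the
cyclotomic `ℤ_p`-extension but not `ℚ_{i+1}` (in terms of the action on `ζ`).  Then there is an
`N`-invariant idele `X` of `L` whose norm to `ℚ` is not killed by the reciprocity character
`psiQ p (i+1)`. -/
theorem exists_invariant_idele_psiQ_ne_one {p : ℕ} [hp : Fact p.Prime] {G L : Type} [Group G]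
    [Finite G] [Field L] [NumberField L] [MulSemiringAction G L] [IsGaloisGroup G ℚ L]
    (hp2 : p ≠ 2) (N : Subgroup G) (i : ℕ) (ζ : L) (hζ : IsPrimitiveRoot ζ (p ^ (i + 2)))
    (hN0 : ∀ g ∈ N, ∀ c : ℕ, g • ζ = ζ ^ c → ((c : ZMod (p ^ (i + 1))) ^ (p - 1) = 1))
    (hN1 : ∃ g ∈ N, ∃ c : ℕ, g • ζ = ζ ^ c ∧ ((c : ZMod (p ^ (i + 2))) ^ (p - 1) ≠ 1)) :
    ∃ (X : FinIdele L) (Y : FinIdele ℚ), (∀ g ∈ N, g • X = X) ∧
      (∏ᶠ g : G ⧸ N, (Quotient.out g : G) • X = FinIdele.map (algebraMap ℚ L) Y) ∧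
      psiQ p (i + 1) Y ≠ 1 := by
  classical
  haveI : FaithfulSMul G L := IsGaloisGroup.faithful ℚ
  obtain ⟨S, hpS, hS⟩ := exists_unramifiedOutside_superset L {pPrimes p}
  have hidx := card_quotient_ker_psiN i hζ N hN0 hN1
  obtain ⟨q, hqS, w, g, hgD, hgV⟩ :=
    exists_place_mem_decompGroup_notMem (L := L) hp2 N (psiN hζ N).ker hidx S
  have hqp : (q : ℕ) ≠ p := by
    intro h
    apply hqS
    apply hpS
    rw [Finset.mem_singleton]
    exact Subtype.ext h
  have hunr : UnramifiedAt (q : ℕ) L := hS q hqS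
  letI := Fintype.ofFinite (Place (q : ℕ) L)
  obtain ⟨j, hj⟩ := exists_smul_eq_pow_of_pow_prime_pow_eq_one (p := p) hqp hunr w N
    hζ.pow_eq_one (g := (g : G)) ⟨hgD, g.2⟩
  set f := Nat.card (decompGroup G w) / Nat.card ↥(decompGroup G w ⊓ N) with hf
  have h1 : (((q : ℕ) ^ (f * j) : ℕ) : ZMod (p ^ (i + 2))) ^ (p - 1) ≠ 1 := by
    intro h
    exact hgV (MonoidHom.mem_ker.2 ((psiN_eq_one_iff hζ N g hj).2 h))
  refine ⟨primeIdele q (Place.orbitFinset N w),
    FinIdele.single q (unitsOfQ (q : ℕ) (padicPrimeUnit (q : ℕ) ^ f)),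
    fun n hn => smul_primeIdele_orbitFinset w hn, ?_, ?_⟩
  · rw [finprod_out_smul_primeIdele_orbitFinset, map_single', unitsOfQ_eq_scalarUnits,
      SL.unitsMap_scalarUnits]
    simp only [map_pow]
    rfl
  · rw [psiQ_single_of_ne p (i + 1) q hqp, valuation_padicPrimeUnit_pow, zpow_natCast]
    intro h2
    apply h1
    have h3 : ((primeUnitMod p (i + 1) q hqp) ^ (p - 1)) ^ f = 1 := by
      rw [inv_pow, inv_pow, inv_eq_one] at h2
      exact h2
    have h4 : (((primeUnitMod p (i + 1) q hqp : (ZMod (p ^ (i + 1 + 1)))ˣ) :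
        ZMod (p ^ (i + 1 + 1))) ^ (p - 1)) ^ f = 1 := by
      have := congrArg Units.val h3
      simpa using this
    have h5 : ((primeUnitMod p (i + 1) q hqp : (ZMod (p ^ (i + 1 + 1)))ˣ) :
        ZMod (p ^ (i + 1 + 1))) = ((q : ℕ) : ZMod (p ^ (i + 1 + 1))) := rfl
    rw [h5] at h4
    change (((q : ℕ) ^ (f * j) : ℕ) : ZMod (p ^ (i + 1 + 1))) ^ (p - 1) = 1
    rw [Nat.cast_pow, ← pow_mul, mul_comm (f * j) (p - 1), ← mul_assoc, pow_mul, pow_mul, h4,
      one_pow]

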