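/-
P4 / Layer C5-PSI: `p^n`-th powers in `ℤ_pˣ` (`p` odd).

* `exists_pow_eq_of_mem_U_succ` : `1 + p^(n+1) ℤ_p = (1 + p ℤ_p)^(p^n)`;
* `exists_pow_eq_of_toZModPow_pow_eq_one` : a unit `x` with `x^(p-1) ≡ 1 mod p^(n+1)` is a
  `p^n`-th power.
-/
import Fermat.Agent.Lib.CFT.Local.PowerIndex

set_option autoImplicit false
set_option linter.unusedSectionVars false

namespace Fermat.Agent.CFT.Global

open Fermat.Agent.CFT.Local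

noncomputable section

variable {p : ℕ} [hp : Fact p.Prime]

/-- `(1 + p^(1+i) x)^(p^n) = 1 + p^(n+1+i) (x + p y)` for `p` odd -/
lemma exists_one_add_pow_prime_pow_padic (hp2 : p ≠ 2) (n i : ℕ) (x : ℤ_[p]) :
    ∃ y : ℤ_[p], (1 + (p : ℤ_[p]) ^ (1 + i) * x) ^ p ^ n =
      1 + (p : ℤ_[p]) ^ (n + 1 + i) * (x + p * y) := by
  have h3 : 3 ≤ p := by
    have := hp.out.two_le
    omega
  obtain ⟨y, hy⟩ := ZMod.exists_one_add_mul_pow_prime_pow_eq (R := ℤ_[p]) (u := (p : ℤ_[p]) ^ (1 + i))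
    (v := (p : ℤ_[p])) hp.out (dvd_pow_self _ (by omega)) (by
      rw [← pow_succ', ← pow_succ, ← pow_mul]
      apply pow_dvd_pow
      nlinarith) x n
  refine ⟨y, ?_⟩
  rw [hy]
  ring

/-- `p^n`-th powers of `U (1+i)` lie in `U (n+1+i)` -/
lemma pow_prime_pow_mem_U (hp2 : p ≠ 2) (n i : ℕ) {x : ℤ_[p]ˣ} (hx : x ∈ U ℤ_[p] (1 + i)) :
    x ^ p ^ n ∈ U ℤ_[p] (n + 1 + i) := by
  have hϖ : Irreducible (p : ℤ_[p]) := PadicInt.irreducible_p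
  obtain ⟨b, hb⟩ := (mem_U_iff hϖ).1 hx
  obtain ⟨y, hy⟩ := exists_one_add_pow_prime_pow_padic hp2 n i b
  rw [mem_U_iff hϖ]
  exact ⟨b + p * y, by rw [Units.val_pow_eq_pow_val, hb, hy]⟩

/-- approximation step -/
lemma exists_pow_prime_pow_div_mem_U (hp2 : p ≠ 2) (n i : ℕ) {y : ℤ_[p]ˣ}
    (hy : y ∈ U ℤ_[p] (n + 1 + i)) :
    ∃ x ∈ U ℤ_[p] (1 + i), y / x ^ p ^ n ∈ U ℤ_[p] (n + 1 + i + 1) := by
  have hϖ : Irreducible (p : ℤ_[p]) := PadicInt.irreducible_p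
  obtain ⟨b, hb⟩ := (mem_U_iff hϖ).1 hy
  obtain ⟨x, hx⟩ := exists_unit_eq_one_add hϖ (n := 1 + i) (by omega) b
  obtain ⟨r, hr⟩ := exists_one_add_pow_prime_pow_padic hp2 n i b
  refine ⟨x, (mem_U_iff hϖ).2 ⟨_, hx⟩, ?_⟩
  rw [mem_U]
  have h1 : ((y / x ^ p ^ n : ℤ_[p]ˣ) : ℤ_[p]) - 1 =
      ((x ^ p ^ n)⁻¹ : ℤ_[p]ˣ) * ((y : ℤ_[p]) - ((x ^ p ^ n : ℤ_[p]ˣ) : ℤ_[p])) := by
    rw [div_eq_mul_inv, Units.val_mul, mul_sub, Units.inv_mul]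
    ring
  rw [h1]
  refine Ideal.mul_mem_left _ _ ?_
  rw [mem_pow_iff hϖ]
  refine ⟨-r, ?_⟩
  rw [Units.val_pow_eq_pow_val, hx, hr, hb]
  ring

/-- **`1 + p^(n+1) ℤ_p = (1 + p ℤ_p)^(p^n)`** for `p` odd -/
theorem exists_pow_eq_of_mem_U_succ (hp2 : p ≠ 2) (n : ℕ) {y : ℤ_[p]ˣ}
    (hy : y ∈ U ℤ_[p] (n + 1)) : ∃ x ∈ U ℤ_[p] 1, x ^ p ^ n = y := by
  have := exists_map_eq_of_filtered (powMonoidHom (p ^ n) : ℤ_[p]ˣ →* ℤ_[p]ˣ)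
    (fun i => U ℤ_[p] (1 + i)) (fun i => U ℤ_[p] (n + 1 + i)) ⊤
    (fun i x hx => pow_prime_pow_mem_U hp2 n i hx)
    (fun _ => Subgroup.mem_top _)
    (fun x hx => exists_limit_U 1 (le_refl 1) x hx)
    (fun y hy => eq_one_of_forall_mem_U y fun i => U_anti ℤ_[p] (by omega) (hy i))
    (fun i y hy _ => exists_pow_prime_pow_div_mem_U hp2 n i hy)
    y (by simpa using hy) (Subgroup.mem_top _)
  simpa using this

/-- a unit which is `1` modulo `p^k` lies in `U k` -/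
lemma mem_U_of_toZModPow_eq_one {k : ℕ} {x : ℤ_[p]ˣ}
    (hx : PadicInt.toZModPow k (x : ℤ_[p]) = 1) : x ∈ U ℤ_[p] k := by
  have hϖ : Irreducible (p : ℤ_[p]) := PadicInt.irreducible_p
  rw [mem_U, mem_pow_iff hϖ]
  have h1 : (x : ℤ_[p]) - 1 ∈ RingHom.ker (PadicInt.toZModPow (p := p) k) := by
    rw [RingHom.mem_ker, map_sub, hx, map_one, sub_self]
  rw [PadicInt.ker_toZModPow, Ideal.mem_span_singleton] at h1
  obtain ⟨c, hc⟩ := h1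
  exact ⟨c, hc⟩

/-- **a unit `x` of `ℤ_p` with `x^(p-1) ≡ 1 mod p^(n+1)` is a `p^n`-th power** (`p` odd) -/
theorem exists_pow_eq_of_toZModPow_pow_eq_one (hp2 : p ≠ 2) (n : ℕ) (x : ℤ_[p]ˣ)
    (hx : (PadicInt.toZModPow (n + 1) (x : ℤ_[p])) ^ (p - 1) = 1) :
    ∃ z : ℤ_[p]ˣ, z ^ p ^ n = x := by
  have h1 : x ^ (p - 1) ∈ U ℤ_[p] (n + 1) := by
    apply mem_U_of_toZModPow_eq_one
    rw [Units.val_pow_eq_pow_val, map_pow, hx]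
  obtain ⟨w, -, hw⟩ := exists_pow_eq_of_mem_U_succ hp2 n h1
  have hcop : Nat.Coprime (p - 1) (p ^ n) := by
    apply Nat.Coprime.pow_right
    have h2 := hp.out.two_le
    exact ((Nat.Prime.coprime_iff_not_dvd hp.out).2
      (Nat.not_dvd_of_pos_of_lt (by omega) (by omega))).symm
  -- Bezout
  have hb : ((p - 1 : ℕ) : ℤ) * Nat.gcdA (p - 1) (p ^ n) + ((p ^ n : ℕ) : ℤ) * Nat.gcdB (p - 1) (p ^ n)
      = 1 := by
    have := Nat.gcd_eq_gcd_ab (p - 1) (p ^ n)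
    rw [hcop.gcd_eq_one] at this
    exact_mod_cast this.symm
  refine ⟨w ^ Nat.gcdA (p - 1) (p ^ n) * x ^ Nat.gcdB (p - 1) (p ^ n), ?_⟩
  set a := Nat.gcdA (p - 1) (p ^ n) with ha
  set b := Nat.gcdB (p - 1) (p ^ n) with hb'
  calc (w ^ a * x ^ b) ^ p ^ n = (w ^ p ^ n) ^ a * (x ^ p ^ n) ^ b := by
        rw [mul_pow, ← zpow_natCast, ← zpow_natCast, ← zpow_mul, ← zpow_mul, mul_comm a,
          mul_comm b, zpow_mul, zpow_mul, zpow_natCast, zpow_natCast]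
    _ = x ^ (((p - 1 : ℕ) : ℤ) * a + ((p ^ n : ℕ) : ℤ) * b) := by
        rw [hw, zpow_add, zpow_mul, zpow_mul, zpow_natCast, zpow_natCast]
    _ = x := by rw [hb, zpow_one]

end

end Fermat.Agent.CFT.Global
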