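/-
P4 / Layer C5 (fundamental classes): the explicit reciprocity character of `ℚ` for the cyclotomic
`ℤ_p`-extension.

`psiQ p n : FinIdele ℚ →* (ZMod (p ^ (n + 1)))ˣ`,
`x ↦ [u_p(x_p)]^(p-1) · ∏_{q ≠ p} [q]^(-(p-1) ord_q x_q)`, where `u_p(x_p) = x_p p^(-ord_p x_p)`.
It kills principal ideles and the unit ideles away from `p`; its kernel on `C_S(ℚ)` (`p ∈ S`) is the
norm group of the `n`-th layer `ℚ_n` of the cyclotomic `ℤ_p`-extension (proved elsewhere).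
-/
import Fermat.Agent.Lib.CFT.Global.Defs

set_option autoImplicit false

open scoped TensorProduct

namespace Fermat.Agent.CFT.Global

noncomputable section

/-! ## `ℚ_q`: order and unit part -/

section Padic

variable (q : ℕ) [hq : Fact q.Prime]

/-- the valuation as a homomorphism `ℚ_qˣ →* Multiplicative ℤ` -/
def padicOrd : ℚ_[q]ˣ →* Multiplicative ℤ where
  toFun x := Multiplicative.ofAdd (x : ℚ_[q]).valuation
  map_one' := by
    change Multiplicative.ofAdd ((1 : ℚ_[q]).valuation) = 1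
    rw [Padic.valuation_one]; rfl
  map_mul' x y := by
    change Multiplicative.ofAdd (((x : ℚ_[q]) * (y : ℚ_[q])).valuation) = _
    rw [Padic.valuation_mul x.ne_zero y.ne_zero]; rfl

lemma padicOrd_apply (x : ℚ_[q]ˣ) :
    padicOrd q x = Multiplicative.ofAdd (x : ℚ_[q]).valuation := rfl

lemma norm_mul_zpow_neg_valuation (x : ℚ_[q]ˣ) :
    ‖(x : ℚ_[q]) * (q : ℚ_[q]) ^ (-(x : ℚ_[q]).valuation)‖ = 1 := by
  have hq0 : (0 : ℝ) < q := by exact_mod_cast hq.out.pos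
  rw [norm_mul, norm_zpow, Padic.norm_p, Padic.norm_eq_zpow_neg_valuation x.ne_zero, inv_zpow,
    ← zpow_neg, neg_neg, ← zpow_add₀ hq0.ne', neg_add_cancel, zpow_zero]

/-- the unit part `x ↦ x q^(-ord x)` as a homomorphism `ℚ_qˣ →* ℤ_qˣ` -/
def padicUnitPart : ℚ_[q]ˣ →* ℤ_[q]ˣ where
  toFun x := PadicInt.mkUnits (norm_mul_zpow_neg_valuation q x)
  map_one' := by
    apply Units.ext
    apply Subtype.ext
    change (1 : ℚ_[q]) * (q : ℚ_[q]) ^ (-(1 : ℚ_[q]).valuation) = 1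
    rw [Padic.valuation_one, neg_zero, zpow_zero, one_mul]
  map_mul' x y := by
    apply Units.ext
    apply Subtype.ext
    have hq0 : (q : ℚ_[q]) ≠ 0 := by exact_mod_cast hq.out.ne_zero
    change ((x : ℚ_[q]) * (y : ℚ_[q])) * (q : ℚ_[q]) ^ (-((x : ℚ_[q]) * (y : ℚ_[q])).valuation) =
      ((x : ℚ_[q]) * (q : ℚ_[q]) ^ (-(x : ℚ_[q]).valuation)) *
        ((y : ℚ_[q]) * (q : ℚ_[q]) ^ (-(y : ℚ_[q]).valuation))
    rw [Padic.valuation_mul x.ne_zero y.ne_zero, neg_add, zpow_add₀ hq0]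
    ring

lemma coe_padicUnitPart (x : ℚ_[q]ˣ) :
    (((padicUnitPart q x : ℤ_[q]ˣ) : ℤ_[q]) : ℚ_[q]) =
      (x : ℚ_[q]) * (q : ℚ_[q]) ^ (-(x : ℚ_[q]).valuation) := rfl

end Padic

/-! ## The components of an idele of `ℚ` -/

section Comp

/-- `ℚ_q ⊗ ℚ ≃ ℚ_q` -/
def ridQ (q : ℕ) [Fact q.Prime] : SL q ℚ ≃ₐ[ℚ_[q]] ℚ_[q] := Algebra.TensorProduct.rid ℚ ℚ_[q] ℚ_[q]

@[simp] lemma ridQ_tmul (q : ℕ) [Fact q.Prime] (a : ℚ_[q]) (r : ℚ) :
    ridQ q (a ⊗ₜ[ℚ] r) = r • a :=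
  Algebra.TensorProduct.rid_tmul (R := ℚ) (S := ℚ_[q]) (A := ℚ_[q]) r a

/-- the component at `q` of an idele of `ℚ`, as an element of `ℚ_qˣ` -/
def FinIdele.compQ (q : Nat.Primes) : FinIdele ℚ →* ℚ_[(q : ℕ)]ˣ :=
  (Units.map ((ridQ (q : ℕ)) : SL (q : ℕ) ℚ →* ℚ_[(q : ℕ)])).comp (FinIdele.comp q)

/-- the inverse direction: `ℚ_qˣ → (ℚ_q ⊗ ℚ)ˣ` -/
def unitsOfQ (q : ℕ) [Fact q.Prime] : ℚ_[q]ˣ →* (SL q ℚ)ˣ :=
  Units.map ((ridQ q).symm : ℚ_[q] →* SL q ℚ)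

@[simp] lemma FinIdele.compQ_single_same (q : Nat.Primes) (x : ℚ_[(q : ℕ)]ˣ) :
    FinIdele.compQ q (FinIdele.single q (unitsOfQ (q : ℕ) x)) = x := by
  apply Units.ext
  change ridQ (q : ℕ) ((FinIdele.comp q (FinIdele.single q (unitsOfQ (q : ℕ) x)) : (SL (q : ℕ) ℚ)ˣ) :
    SL (q : ℕ) ℚ) = x
  rw [FinIdele.comp_single_same]
  exact (ridQ (q : ℕ)).apply_symm_apply _

lemma FinIdele.compQ_single_of_ne {q r : Nat.Primes} (h : r ≠ q) (u : (SL (q : ℕ) ℚ)ˣ) :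
    FinIdele.compQ r (FinIdele.single q u) = 1 := by
  rw [FinIdele.compQ, MonoidHom.comp_apply, FinIdele.comp_single_of_ne h, map_one]

/-- local units have valuation `0` -/
lemma valuation_compQ_of_mem_unitGroup (q : Nat.Primes) {x : FinIdele ℚ}
    (hx : FinIdele.comp q x ∈ SL.unitGroup (q : ℕ) ℚ) :
    ((FinIdele.compQ q x : ℚ_[(q : ℕ)]ˣ) : ℚ_[(q : ℕ)]).valuation = 0 := by
  rw [SL.mem_unitGroup_iff] at hx
  obtain ⟨h1, h2⟩ := hx
  have key : ∀ y : SL (q : ℕ) ℚ, y ∈ SL.integers (q : ℕ) ℚ → ‖ridQ (q : ℕ) y‖ ≤ 1 := by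
    intro y hy
    rw [SL.mem_integers_iff] at hy
    have h3 : IsIntegral ℤ_[(q : ℕ)] (ridQ (q : ℕ) y) :=
      hy.map ((ridQ (q : ℕ)).toAlgHom.restrictScalars ℤ_[(q : ℕ)])
    obtain ⟨z, hz⟩ := (IsIntegrallyClosed.isIntegral_iff (R := ℤ_[(q : ℕ)])).1 h3
    rw [← hz]
    exact z.2
  have hn1 := key _ h1
  have hn2 := key _ h2
  set u : ℚ_[(q : ℕ)]ˣ := FinIdele.compQ q x with hu
  have e1 : ridQ (q : ℕ) ((FinIdele.comp q x : (SL (q : ℕ) ℚ)ˣ) : SL (q : ℕ) ℚ) = (u : ℚ_[(q : ℕ)]) :=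
    rfl
  have e2 : ridQ (q : ℕ) (((FinIdele.comp q x)⁻¹ : (SL (q : ℕ) ℚ)ˣ) : SL (q : ℕ) ℚ) =
      ((u⁻¹ : ℚ_[(q : ℕ)]ˣ) : ℚ_[(q : ℕ)]) := by
    have h3 : u⁻¹ = Units.map ((ridQ (q : ℕ)) : SL (q : ℕ) ℚ →* ℚ_[(q : ℕ)])
        ((FinIdele.comp q x)⁻¹) := by
      rw [hu, FinIdele.compQ, MonoidHom.comp_apply, map_inv]
    rw [h3]; rfl
  rw [e1] at hn1
  rw [e2, Units.val_inv_eq_inv_val, norm_inv] at hn2
  have hpos : 0 < ‖(u : ℚ_[(q : ℕ)])‖ := norm_pos_iff.2 u.ne_zero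
  have hn3 : 1 ≤ ‖(u : ℚ_[(q : ℕ)])‖ := by
    rw [inv_le_one₀ hpos] at hn2
    exact hn2
  have hnorm : ‖(u : ℚ_[(q : ℕ)])‖ = 1 := le_antisymm hn1 hn3
  have hq1 : (1 : ℝ) < ((q : ℕ) : ℝ) := by exact_mod_cast q.2.one_lt
  rw [Padic.norm_eq_zpow_neg_valuation u.ne_zero] at hnorm
  have := (zpow_eq_one_iff_right₀ (by positivity) hq1.ne').1 hnorm
  omega

end Comp

/-! ## The character `psiQ` -/

section Psi

variable (p : ℕ) [hp : Fact p.Prime] (n : ℕ)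

/-- `p` as an element of `Nat.Primes` -/
abbrev pPrimes : Nat.Primes := ⟨p, hp.out⟩

/-- the class of the prime `q ≠ p` in `(ℤ/p^(n+1))ˣ` -/
def primeUnitMod (q : Nat.Primes) (hq : (q : ℕ) ≠ p) : (ZMod (p ^ (n + 1)))ˣ :=
  ZMod.unitOfCoprime (q : ℕ) (Nat.Coprime.pow_right _ ((Nat.coprime_primes q.2 hp.out).2 hq))

/-- the factor of `psiQ` at `p`: `[u_p(x_p)]^(p-1)` -/
def psiAtP : FinIdele ℚ →* (ZMod (p ^ (n + 1)))ˣ :=
  (powMonoidHom (p - 1)).comp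
    (((Units.map ((PadicInt.toZModPow (n + 1) : ℤ_[p] →+* ZMod (p ^ (n + 1))) :
        ℤ_[p] →* ZMod (p ^ (n + 1)))).comp (padicUnitPart p)).comp
      (FinIdele.compQ (pPrimes p)))

/-- the factor of `psiQ` at `q ≠ p`: `[q]^(-(p-1) ord_q x_q)` -/
def psiAway (q : Nat.Primes) (hq : (q : ℕ) ≠ p) : FinIdele ℚ →* (ZMod (p ^ (n + 1)))ˣ :=
  ((zpowersHom (ZMod (p ^ (n + 1)))ˣ ((primeUnitMod p n q hq)⁻¹ ^ (p - 1))).comp
    (padicOrd (q : ℕ))).comp (FinIdele.compQ q)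

lemma psiAway_apply (q : Nat.Primes) (hq : (q : ℕ) ≠ p) (x : FinIdele ℚ) :
    psiAway p n q hq x = ((primeUnitMod p n q hq)⁻¹ ^ (p - 1)) ^
      ((FinIdele.compQ q x : ℚ_[(q : ℕ)]ˣ) : ℚ_[(q : ℕ)]).valuation := rfl

lemma psiAway_eq_one_of_mem_unitGroup (q : Nat.Primes) (hq : (q : ℕ) ≠ p) {x : FinIdele ℚ}
    (hx : FinIdele.comp q x ∈ SL.unitGroup (q : ℕ) ℚ) : psiAway p n q hq x = 1 := by
  rw [psiAway_apply, valuation_compQ_of_mem_unitGroup q hx, zpow_zero]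

lemma finite_mulSupport_psiAway (x : FinIdele ℚ) :
    (Function.mulSupport fun q : {q : Nat.Primes // (q : ℕ) ≠ p} => psiAway p n q.1 q.2 x).Finite := by
  refine (x.finite_notMem_unitGroup.preimage (Subtype.val_injective.injOn)).subset ?_
  intro q hq
  rw [Function.mem_mulSupport] at hq
  by_contra h
  exact hq (psiAway_eq_one_of_mem_unitGroup p n q.1 q.2 (by simpa using h))

/-- **the explicit reciprocity character** of `ℚ` for the `n`-th layer of the cyclotomic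
`ℤ_p`-extension -/
def psiQ : FinIdele ℚ →* (ZMod (p ^ (n + 1)))ˣ where
  toFun x := psiAtP p n x * ∏ᶠ q : {q : Nat.Primes // (q : ℕ) ≠ p}, psiAway p n q.1 q.2 x
  map_one' := by
    simp only [map_one, finprod_one, mul_one]
  map_mul' x y := by
    simp only [map_mul]
    rw [finprod_mul_distrib (finite_mulSupport_psiAway p n x) (finite_mulSupport_psiAway p n y)]
    exact mul_mul_mul_comm _ _ _ _

lemma psiQ_apply (x : FinIdele ℚ) :
    psiQ p n x = psiAtP p n x * ∏ᶠ q : {q : Nat.Primes // (q : ℕ) ≠ p}, psiAway p n q.1 q.2 x := rfl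

/-- value on an idele supported at `q ≠ p` -/
lemma psiQ_single_of_ne (q : Nat.Primes) (hq : (q : ℕ) ≠ p) (x : ℚ_[(q : ℕ)]ˣ) :
    psiQ p n (FinIdele.single q (unitsOfQ (q : ℕ) x)) =
      ((primeUnitMod p n q hq)⁻¹ ^ (p - 1)) ^ (x : ℚ_[(q : ℕ)]).valuation := by
  have hqp : pPrimes p ≠ q := fun h => hq (congrArg Subtype.val h).symm
  rw [psiQ_apply]
  have h1 : psiAtP p n (FinIdele.single q (unitsOfQ (q : ℕ) x)) = 1 := by
    rw [psiAtP, MonoidHom.comp_apply, MonoidHom.comp_apply, FinIdele.compQ_single_of_ne hqp,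
      map_one, map_one]
  rw [h1, one_mul, finprod_eq_single _ (⟨q, hq⟩ : {q : Nat.Primes // (q : ℕ) ≠ p})]
  · rw [psiAway_apply, FinIdele.compQ_single_same]
  · intro r hr
    have hrq : r.1 ≠ q := fun h => hr (Subtype.ext h)
    rw [psiAway_apply, FinIdele.compQ_single_of_ne hrq, Units.val_one, Padic.valuation_one,
      zpow_zero]

/-- value on an idele supported at `p` -/
lemma psiQ_single_p (x : ℚ_[p]ˣ) :
    psiQ p n (FinIdele.single (pPrimes p) (unitsOfQ p x)) =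
      (Units.map ((PadicInt.toZModPow (n + 1) : ℤ_[p] →+* ZMod (p ^ (n + 1))) :
        ℤ_[p] →* ZMod (p ^ (n + 1))) (padicUnitPart p x)) ^ (p - 1) := by
  rw [psiQ_apply]
  have h1 : ∏ᶠ r : {q : Nat.Primes // (q : ℕ) ≠ p},
      psiAway p n r.1 r.2 (FinIdele.single (pPrimes p) (unitsOfQ p x)) = 1 := by
    apply finprod_eq_one_of_forall_eq_one
    intro r
    have hrp : r.1 ≠ pPrimes p := fun h => r.2 (congrArg Subtype.val h)
    rw [psiAway_apply, FinIdele.compQ_single_of_ne hrp, Units.val_one, Padic.valuation_one,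
      zpow_zero]
  rw [h1, mul_one, psiAtP, MonoidHom.comp_apply, MonoidHom.comp_apply, MonoidHom.comp_apply]
  have h2 : FinIdele.compQ (pPrimes p) (FinIdele.single (pPrimes p) (unitsOfQ p x)) = x :=
    FinIdele.compQ_single_same (pPrimes p) x
  rw [h2]
  rfl

end Psi

end

end Fermat.Agent.CFT.Global
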