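/-
P4 / Layer C5-PSI: the reciprocity character `psiQ` on the idele class groups of `ℚ`.

* `psiQ_princ` : `psiQ` kills the principal ideles (`p` odd);
* `psiQ_eq_one_of_mem_unitsOutside` : and the units outside `S ∋ p`;
* `PsiQ S : CS S ℚ →* (ℤ/p^(n+1))ˣ`;
* for `S = {p}` : every class is represented by a unit of `ℤ_p` at `p`, and the kernel of `PsiQ`
  consists of `p^n`-th powers.
-/
import Fermat.Agent.Lib.CFT.Global.Recip.PsiDefs
import Fermat.Agent.Lib.CFT.Global.Recip.ZModUnits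
import Fermat.Agent.Lib.CFT.Global.Recip.PadicPow
import Fermat.Agent.Lib.CFT.Global.IdeleClass

set_option autoImplicit false
set_option linter.unusedSectionVars false
set_option linter.style.haveILetI false

open scoped TensorProduct NumberField

namespace Fermat.Agent.CFT.Global

noncomputable section

/-! ## Components of principal ideles of `ℚ` -/

section Princ

lemma coe_compQ_princ (q : Nat.Primes) (a : ℚˣ) :
    ((FinIdele.compQ q (FinIdele.princ ℚ a) : ℚ_[(q : ℕ)]ˣ) : ℚ_[(q : ℕ)]) =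
      ((a : ℚ) : ℚ_[(q : ℕ)]) := by
  change ridQ (q : ℕ) (SL.incl (q : ℕ) ℚ (a : ℚ)) = _
  rw [SL.incl_apply, ridQ_tmul, Algebra.smul_def, mul_one, eq_ratCast]

end Princ

section Psi

variable (p : ℕ) [hp : Fact p.Prime] (n : ℕ)

/-- reduction of `p`-adic units modulo `p^(n+1)` -/
abbrev zpUnitsMod : ℤ_[p]ˣ →* (ZMod (p ^ (n + 1)))ˣ :=
  Units.map ((PadicInt.toZModPow (n + 1) : ℤ_[p] →+* ZMod (p ^ (n + 1))) :
    ℤ_[p] →* ZMod (p ^ (n + 1)))

lemma psiAtP_apply (x : FinIdele ℚ) :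
    psiAtP p n x = (zpUnitsMod p n (padicUnitPart p (FinIdele.compQ (pPrimes p) x))) ^ (p - 1) :=
  rfl

variable {p}

lemma coe_padicUnitPart_of_valuation_eq_zero {x : ℚ_[p]ˣ} (h : (x : ℚ_[p]).valuation = 0) :
    (((padicUnitPart p x : ℤ_[p]ˣ) : ℤ_[p]) : ℚ_[p]) = x := by
  rw [coe_padicUnitPart, h, neg_zero, zpow_zero, mul_one]

/-- the natural number `m` as a unit of `ℚ` -/
def natUnit (m : ℕ) (hm : m ≠ 0) : ℚˣ := Units.mk0 (m : ℚ) (by exact_mod_cast hm)

@[simp] lemma coe_natUnit (m : ℕ) (hm : m ≠ 0) : ((natUnit m hm : ℚˣ) : ℚ) = m := rfl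

lemma natUnit_mul (a b : ℕ) (ha : a ≠ 0) (hb : b ≠ 0) :
    natUnit (a * b) (mul_ne_zero ha hb) = natUnit a ha * natUnit b hb := by
  apply Units.ext
  simp

lemma coe_compQ_princ_natUnit (q : Nat.Primes) (m : ℕ) (hm : m ≠ 0) :
    ((FinIdele.compQ q (FinIdele.princ ℚ (natUnit m hm)) : ℚ_[(q : ℕ)]ˣ) : ℚ_[(q : ℕ)]) =
      (m : ℚ_[(q : ℕ)]) := by
  rw [coe_compQ_princ, coe_natUnit, Rat.cast_natCast]

variable (p)

/-- `psiAtP` on a prime `r ≠ p` -/
lemma psiAtP_princ_prime_of_ne (r : Nat.Primes) (hr : (r : ℕ) ≠ p) :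
    psiAtP p n (FinIdele.princ ℚ (natUnit (r : ℕ) r.2.ne_zero)) =
      (primeUnitMod p n r hr) ^ (p - 1) := by
  rw [psiAtP_apply]
  congr 1
  set x := FinIdele.compQ (pPrimes p) (FinIdele.princ ℚ (natUnit (r : ℕ) r.2.ne_zero)) with hx
  have hxr : (x : ℚ_[p]) = ((r : ℕ) : ℚ_[p]) :=
    coe_compQ_princ_natUnit (pPrimes p) (r : ℕ) r.2.ne_zero
  have hval : (x : ℚ_[p]).valuation = 0 := by
    rw [hxr, Padic.valuation_natCast]
    have : padicValNat p (r : ℕ) = 0 := by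
      apply padicValNat.eq_zero_of_not_dvd
      intro h
      exact hr ((Nat.prime_dvd_prime_iff_eq hp.out r.2).1 h).symm
    rw [this]; rfl
  have h1 := coe_padicUnitPart_of_valuation_eq_zero hval
  rw [hxr] at h1
  have h2 : ((padicUnitPart p x : ℤ_[p]ˣ) : ℤ_[p]) = ((r : ℕ) : ℤ_[p]) := by
    apply Subtype.ext
    rw [h1]
    simp
  apply Units.ext
  change PadicInt.toZModPow (n + 1) ((padicUnitPart p x : ℤ_[p]ˣ) : ℤ_[p]) = _
  rw [h2, map_natCast, primeUnitMod, ZMod.coe_unitOfCoprime]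

/-- `psiAtP` on the prime `p` -/
lemma psiAtP_princ_self :
    psiAtP p n (FinIdele.princ ℚ (natUnit p hp.out.ne_zero)) = 1 := by
  rw [psiAtP_apply]
  set x := FinIdele.compQ (pPrimes p) (FinIdele.princ ℚ (natUnit p hp.out.ne_zero)) with hx
  have hxr : (x : ℚ_[p]) = (p : ℚ_[p]) := coe_compQ_princ_natUnit (pPrimes p) p hp.out.ne_zero
  have h1 : padicUnitPart p x = 1 := by
    apply Units.ext
    apply Subtype.ext
    rw [coe_padicUnitPart, hxr, Padic.valuation_p]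
    have hp0 : (p : ℚ_[p]) ≠ 0 := by exact_mod_cast hp.out.ne_zero
    rw [zpow_neg, zpow_one, mul_inv_cancel₀ hp0]
    rfl
  rw [h1, map_one, one_pow]

/-- `psiAway` on a prime -/
lemma psiAway_princ_prime (q : Nat.Primes) (hq : (q : ℕ) ≠ p) (r : Nat.Primes) :
    psiAway p n q hq (FinIdele.princ ℚ (natUnit (r : ℕ) r.2.ne_zero)) =
      if q = r then ((primeUnitMod p n q hq)⁻¹) ^ (p - 1) else 1 := by
  rw [psiAway_apply, coe_compQ_princ_natUnit, Padic.valuation_natCast]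
  split_ifs with h
  · subst h
    rw [padicValNat_self, Nat.cast_one, zpow_one]
  · have : padicValNat (q : ℕ) (r : ℕ) = 0 := by
      apply padicValNat.eq_zero_of_not_dvd
      intro h'
      exact h (Subtype.ext ((Nat.prime_dvd_prime_iff_eq q.2 r.2).1 h'))
    rw [this, Nat.cast_zero, zpow_zero]

/-- `psiQ` kills the primes -/
lemma psiQ_princ_prime (r : Nat.Primes) :
    psiQ p n (FinIdele.princ ℚ (natUnit (r : ℕ) r.2.ne_zero)) = 1 := by
  rw [psiQ_apply]
  by_cases hr : (r : ℕ) = p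
  · have hr' : r = pPrimes p := Subtype.ext hr
    subst hr'
    rw [psiAtP_princ_self, one_mul]
    apply finprod_eq_one_of_forall_eq_one
    intro q
    rw [psiAway_princ_prime, if_neg]
    intro h
    exact q.2 (congrArg Subtype.val h)
  · rw [psiAtP_princ_prime_of_ne p n r hr,
      finprod_eq_single _ (⟨r, hr⟩ : {q : Nat.Primes // (q : ℕ) ≠ p})]
    · rw [psiAway_princ_prime, if_pos rfl, inv_pow, mul_inv_cancel]
    · intro q hq
      rw [psiAway_princ_prime, if_neg]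
      intro h
      exact hq (Subtype.ext h)

/-- `psiQ` kills the positive integers -/
lemma psiQ_princ_natUnit (m : ℕ) (hm : m ≠ 0) : psiQ p n (FinIdele.princ ℚ (natUnit m hm)) = 1 := by
  induction m using Nat.recOnMul with
  | zero => exact absurd rfl hm
  | one =>
    have : natUnit 1 hm = 1 := by
      apply Units.ext
      simp
    rw [this, map_one, map_one]
  | prime r hr =>
    exact psiQ_princ_prime p n ⟨r, hr⟩
  | mul a b iha ihb =>
    have ha : a ≠ 0 := fun h => hm (by rw [h, zero_mul])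
    have hb : b ≠ 0 := fun h => hm (by rw [h, mul_zero])
    rw [natUnit_mul a b ha hb, map_mul, map_mul, iha ha, ihb hb, one_mul]

variable {p}

/-- `psiQ` kills `-1` (`p` odd) -/
lemma psiQ_princ_neg_one (hp2 : p ≠ 2) : psiQ p n (FinIdele.princ ℚ (-1)) = 1 := by
  rw [psiQ_apply]
  have hval : ∀ q : Nat.Primes,
      ((FinIdele.compQ q (FinIdele.princ ℚ (-1)) : ℚ_[(q : ℕ)]ˣ) : ℚ_[(q : ℕ)]).valuation = 0 := by
    intro q
    rw [coe_compQ_princ]
    have : (((-1 : ℚˣ) : ℚ) : ℚ_[(q : ℕ)]) = ((-1 : ℤ) : ℚ_[(q : ℕ)]) := by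
      simp
    rw [this, Padic.valuation_intCast, padicValInt, Int.natAbs_neg, Int.natAbs_one,
      padicValNat_one_right]
    rfl
  have h1 : ∏ᶠ q : {q : Nat.Primes // (q : ℕ) ≠ p},
      psiAway p n q.1 q.2 (FinIdele.princ ℚ (-1)) = 1 := by
    apply finprod_eq_one_of_forall_eq_one
    intro q
    rw [psiAway_apply, hval, zpow_zero]
  rw [h1, mul_one, psiAtP_apply]
  set x := FinIdele.compQ (pPrimes p) (FinIdele.princ ℚ (-1)) with hx
  have hxr : (x : ℚ_[p]) = -1 := by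
    have := coe_compQ_princ (pPrimes p) (-1)
    rw [this]
    simp
  have h2 := coe_padicUnitPart_of_valuation_eq_zero (hval (pPrimes p))
  rw [← hx, hxr] at h2
  have h3 : padicUnitPart p x = -1 := by
    apply Units.ext
    apply Subtype.ext
    rw [h2]
    simp
  have h4 : zpUnitsMod p n (-1) = -1 := by
    apply Units.ext
    rw [Units.coe_map, Units.val_neg, Units.val_neg, MonoidHom.coe_coe, map_neg, Units.val_one,
      map_one, Units.val_one]
  rw [h3, h4]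
  exact (hp.out.even_sub_one hp2).neg_one_pow

/-- **`psiQ` kills the principal ideles** -/
theorem psiQ_princ (hp2 : p ≠ 2) (a : ℚˣ) : psiQ p n (FinIdele.princ ℚ a) = 1 := by
  have hnum : (a : ℚ).num ≠ 0 := Rat.num_ne_zero.2 a.ne_zero
  have hnat : (a : ℚ).num.natAbs ≠ 0 := Int.natAbs_ne_zero.2 hnum
  have hden : (a : ℚ).den ≠ 0 := (a : ℚ).den_ne_zero
  have hden' : ((a : ℚ).den : ℚ) ≠ 0 := by exact_mod_cast hden
  rcases Int.natAbs_eq (a : ℚ).num with h | h
  · have ha : a = natUnit _ hnat * (natUnit _ hden)⁻¹ := by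
      apply Units.ext
      rw [Units.val_mul, Units.val_inv_eq_inv_val, coe_natUnit, coe_natUnit, ← div_eq_mul_inv]
      have h1 : (((a : ℚ).num.natAbs : ℕ) : ℚ) = (((a : ℚ).num : ℤ) : ℚ) := by
        conv_rhs => rw [h]
        simp
      rw [h1, Rat.num_div_den]
    rw [ha, map_mul, map_mul, map_inv, map_inv, psiQ_princ_natUnit, psiQ_princ_natUnit, inv_one,
      one_mul]
  · have ha : a = -1 * natUnit _ hnat * (natUnit _ hden)⁻¹ := by
      apply Units.ext
      rw [Units.val_mul, Units.val_mul, Units.val_inv_eq_inv_val, coe_natUnit, coe_natUnit,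
        ← div_eq_mul_inv]
      have h1 : ((-1 : ℚˣ) : ℚ) * (((a : ℚ).num.natAbs : ℕ) : ℚ) = (((a : ℚ).num : ℤ) : ℚ) := by
        conv_rhs => rw [h]
        simp
      rw [h1, Rat.num_div_den]
    rw [ha, map_mul, map_mul, map_mul, map_mul, map_inv, map_inv, psiQ_princ_natUnit,
      psiQ_princ_natUnit, psiQ_princ_neg_one n hp2, inv_one, one_mul, one_mul]

variable (p)

/-- `psiQ` kills the unit ideles outside `S ∋ p` -/
theorem psiQ_eq_one_of_mem_unitsOutside {S : Finset Nat.Primes} (hpS : pPrimes p ∈ S)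
    {x : FinIdele ℚ} (hx : x ∈ unitsOutside S ℚ) : psiQ p n x = 1 := by
  rw [psiQ_apply]
  have h1 : psiAtP p n x = 1 := by
    have h0 : FinIdele.compQ (pPrimes p) x = 1 := by
      rw [FinIdele.compQ, MonoidHom.comp_apply, hx.1 _ hpS, map_one]
    rw [psiAtP_apply, h0, map_one, map_one, one_pow]
  rw [h1, one_mul]
  apply finprod_eq_one_of_forall_eq_one
  intro q
  apply psiAway_eq_one_of_mem_unitGroup
  by_cases hq : q.1 ∈ S
  · rw [hx.1 _ hq]
    exact one_mem _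
  · exact hx.2 _ hq

variable {p}

/-- **the reciprocity character on `C_S(ℚ)`**, `p ∈ S` -/
def PsiQ (S : Finset Nat.Primes) (hpS : pPrimes p ∈ S) (hp2 : p ≠ 2) :
    CS S ℚ →* (ZMod (p ^ (n + 1)))ˣ :=
  QuotientGroup.lift (CS.relations S ℚ) (psiQ p n) (by
    intro x hx
    rw [CS.relations, Subgroup.mem_sup] at hx
    obtain ⟨_, ⟨a, rfl⟩, u, hu, rfl⟩ := hx
    rw [MonoidHom.mem_ker, map_mul, psiQ_princ n hp2, psiQ_eq_one_of_mem_unitsOutside p n hpS hu, one_mul])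

@[simp] lemma PsiQ_mk (S : Finset Nat.Primes) (hpS : pPrimes p ∈ S) (hp2 : p ≠ 2)
    (x : FinIdele ℚ) : PsiQ n S hpS hp2 (CS.mk S ℚ x) = psiQ p n x := rfl

/-! ## Class number one -/

section ClassNumberOne

/-- `J_ℚ = ℚˣ · ∏ ℤ_qˣ` -/
theorem exists_princ_mul_unit (x : FinIdele ℚ) :
    ∃ a : ℚˣ, ∃ u ∈ unitsOutside ∅ ℚ, x = FinIdele.princ ℚ a * u := by
  haveI : Subsingleton (ClassGroup (𝓞 ℚ)) := by
    rw [← Fintype.card_le_one_iff_subsingleton]
    exact le_of_eq Rat.classNumber_eq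
  haveI : Subsingleton (CS ∅ ℚ) := (CS.emptyEquivClassGroup ℚ).toEquiv.subsingleton
  rw [← CS.mk_eq_one_iff']
  exact Subsingleton.elim _ _

end ClassNumberOne

/-! ## The case `S = {p}` -/

section SingleP

variable (p)

/-- `ℤ_pˣ → ℚ_pˣ` -/
def zpToQp : ℤ_[p]ˣ →* ℚ_[p]ˣ := Units.map ((PadicInt.Coe.ringHom : ℤ_[p] →+* ℚ_[p]) : ℤ_[p] →* ℚ_[p])

@[simp] lemma coe_zpToQp (u : ℤ_[p]ˣ) : ((zpToQp p u : ℚ_[p]ˣ) : ℚ_[p]) = ((u : ℤ_[p]) : ℚ_[p]) := rfl

lemma valuation_zpToQp (u : ℤ_[p]ˣ) : ((zpToQp p u : ℚ_[p]ˣ) : ℚ_[p]).valuation = 0 := by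
  have h1 : ‖((zpToQp p u : ℚ_[p]ˣ) : ℚ_[p])‖ = 1 := by
    rw [coe_zpToQp, ← PadicInt.norm_def]
    exact PadicInt.norm_units u
  have hq1 : (1 : ℝ) < (p : ℝ) := by exact_mod_cast hp.out.one_lt
  rw [Padic.norm_eq_zpow_neg_valuation (zpToQp p u).ne_zero] at h1
  have := (zpow_eq_one_iff_right₀ (by positivity) hq1.ne').1 h1
  omega

lemma padicUnitPart_zpToQp (u : ℤ_[p]ˣ) : padicUnitPart p (zpToQp p u) = u := by
  apply Units.ext
  apply Subtype.ext
  rw [coe_padicUnitPart_of_valuation_eq_zero (valuation_zpToQp p u)]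
  rfl

/-- the idele with the `p`-adic unit `u` at `p` -/
def unitIdele : ℤ_[p]ˣ →* FinIdele ℚ :=
  ((FinIdele.single (pPrimes p)).comp (unitsOfQ p)).comp (zpToQp p)

lemma unitIdele_apply (u : ℤ_[p]ˣ) :
    unitIdele p u = FinIdele.single (pPrimes p) (unitsOfQ p (zpToQp p u)) := rfl

/-- the value of `psiQ` on a unit idele at `p` -/
lemma psiQ_unitIdele (u : ℤ_[p]ˣ) : psiQ p n (unitIdele p u) = (zpUnitsMod p n u) ^ (p - 1) := by
  rw [unitIdele_apply, psiQ_single_p, padicUnitPart_zpToQp]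

lemma unitsOfQ_compQ (x : FinIdele ℚ) :
    unitsOfQ p (FinIdele.compQ (pPrimes p) x) = FinIdele.comp (pPrimes p) x := by
  apply Units.ext
  change (ridQ p).symm (ridQ p ((FinIdele.comp (pPrimes p) x : (SL p ℚ)ˣ) : SL p ℚ)) = _
  exact (ridQ p).symm_apply_apply _

/-- every class of `C_{p}(ℚ)` is represented by a unit idele at `p` -/
theorem exists_unitIdele_eq (x : CS {pPrimes p} ℚ) :
    ∃ u : ℤ_[p]ˣ, x = CS.mk {pPrimes p} ℚ (unitIdele p u) := by
  obtain ⟨x, rfl⟩ := CS.mk_surjective {pPrimes p} x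
  obtain ⟨a, v, hv, rfl⟩ := exists_princ_mul_unit x
  have hw := hv.2 (pPrimes p) (Finset.notMem_empty _)
  have hval := valuation_compQ_of_mem_unitGroup (pPrimes p) hw
  have hnorm : ‖((FinIdele.compQ (pPrimes p) v : ℚ_[p]ˣ) : ℚ_[p])‖ = 1 := by
    rw [Padic.norm_eq_zpow_neg_valuation (Units.ne_zero _), hval, neg_zero, zpow_zero]
  refine ⟨PadicInt.mkUnits hnorm, ?_⟩
  have h1 : zpToQp p (PadicInt.mkUnits hnorm) = FinIdele.compQ (pPrimes p) v := Units.ext rfl
  have h2 : FinIdele.comp (pPrimes p) (unitIdele p (PadicInt.mkUnits hnorm)) =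
      FinIdele.comp (pPrimes p) v := by
    rw [unitIdele_apply, FinIdele.comp_single_same, h1, unitsOfQ_compQ]
  rw [CS.mk_eq_mk_iff]
  refine ⟨a, v / unitIdele p (PadicInt.mkUnits hnorm), ⟨?_, ?_⟩, ?_⟩
  · intro q hq
    rw [Finset.mem_singleton] at hq
    rw [hq, map_div, h2, div_self']
  · intro q hq
    rw [Finset.mem_singleton] at hq
    rw [map_div, unitIdele_apply, FinIdele.comp_single_of_ne hq, div_one]
    exact hv.2 _ (Finset.notMem_empty _)
  · rw [mul_comm (unitIdele p _), mul_assoc, mul_div_cancel]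

variable {p}

lemma mem_singleton_pPrimes : pPrimes p ∈ ({pPrimes p} : Finset Nat.Primes) :=
  Finset.mem_singleton_self _

/-- **the kernel of `PsiQ` on `C_{p}(ℚ)` consists of `p^n`-th powers** -/
theorem exists_pow_eq_of_PsiQ_eq_one (hp2 : p ≠ 2) (x : CS {pPrimes p} ℚ)
    (hx : PsiQ n {pPrimes p} mem_singleton_pPrimes hp2 x = 1) : ∃ z : CS {pPrimes p} ℚ,
      z ^ p ^ n = x := by
  obtain ⟨u, rfl⟩ := exists_unitIdele_eq p x
  rw [PsiQ_mk, psiQ_unitIdele] at hx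
  have h1 : (PadicInt.toZModPow (n + 1) (u : ℤ_[p])) ^ (p - 1) = 1 := by
    have := congrArg Units.val hx
    rwa [Units.val_pow_eq_pow_val, Units.val_one] at this
  obtain ⟨z, hz⟩ := exists_pow_eq_of_toZModPow_pow_eq_one hp2 n u h1
  exact ⟨CS.mk _ ℚ (unitIdele p z), by rw [← map_pow, ← map_pow, hz]⟩

/-- every value of `psiQ` is a `(p-1)`-th power -/
theorem exists_psiQ_eq_pow (hp2 : p ≠ 2) (x : FinIdele ℚ) :
    ∃ u : ℤ_[p]ˣ, psiQ p n x = (zpUnitsMod p n u) ^ (p - 1) := by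
  obtain ⟨u, hu⟩ := exists_unitIdele_eq p (CS.mk {pPrimes p} ℚ x)
  refine ⟨u, ?_⟩
  rw [← psiQ_unitIdele, ← PsiQ_mk n {pPrimes p} mem_singleton_pPrimes hp2,
    ← PsiQ_mk n {pPrimes p} mem_singleton_pPrimes hp2, hu]

theorem psiQ_pow_eq_one (hp2 : p ≠ 2) (x : FinIdele ℚ) : (psiQ p n x) ^ p ^ n = 1 := by
  obtain ⟨u, hu⟩ := exists_psiQ_eq_pow n hp2 x
  rw [hu]
  exact pow_pred_pow_eq_one n _

theorem psiQ_mem_zpowers (hp2 : p ≠ 2) (x : FinIdele ℚ) :
    psiQ p n x ∈ Subgroup.zpowers (oneAddP p n) :=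
  mem_zpowers_oneAddP_of_pow_eq_one n hp2 (psiQ_pow_eq_one n hp2 x)

variable (p)

/-- the unit `1 + p` of `ℤ_p` -/
def onePlusP : ℤ_[p]ˣ :=
  (Fermat.Agent.CFT.Local.isUnit_one_add_mul (A := ℤ_[p]) PadicInt.irreducible_p 1).unit

@[simp] lemma coe_onePlusP : ((onePlusP p : ℤ_[p]ˣ) : ℤ_[p]) = 1 + p := by
  rw [onePlusP, IsUnit.unit_spec, mul_one]

lemma zpUnitsMod_onePlusP : zpUnitsMod p n (onePlusP p) = oneAddP p n := by
  apply Units.ext
  rw [Units.coe_map, coe_onePlusP, coe_oneAddP, MonoidHom.coe_coe, map_add, map_one, map_natCast]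

/-- the idele `a` with `1 + p` at `p` -/
def aIdele : FinIdele ℚ := unitIdele p (onePlusP p)

lemma psiQ_aIdele : psiQ p n (aIdele p) = (oneAddP p n) ^ (p - 1) := by
  rw [aIdele, psiQ_unitIdele, zpUnitsMod_onePlusP]

variable {p}

lemma orderOf_psiQ_aIdele (hp2 : p ≠ 2) : orderOf (psiQ p n (aIdele p)) = p ^ n := by
  rw [psiQ_aIdele, orderOf_oneAddP_pow_pred n hp2]

end SingleP

/-! ## Compatibility with the reductions -/

section Red

variable (p)

lemma redUnits_zpUnitsMod (u : ℤ_[p]ˣ) :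
    redUnits p n (zpUnitsMod p (n + 1) u) = zpUnitsMod p n u := by
  apply Units.ext
  rw [redUnits, ZMod.unitsMap_def, Units.coe_map, Units.coe_map, Units.coe_map, MonoidHom.coe_coe,
    MonoidHom.coe_coe, MonoidHom.coe_coe]
  have := PadicInt.zmod_cast_comp_toZModPow (p := p) (n + 1) (n + 2) (Nat.le_succ _)
  exact RingHom.congr_fun this (u : ℤ_[p])

variable {p}

/-- `psiQ p n` is the reduction of `psiQ p (n+1)` -/
theorem redUnits_psiQ (hp2 : p ≠ 2) (x : FinIdele ℚ) :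
    redUnits p n (psiQ p (n + 1) x) = psiQ p n x := by
  obtain ⟨u, hu⟩ := exists_unitIdele_eq p (CS.mk {pPrimes p} ℚ x)
  have h1 : ∀ m, psiQ p m x = psiQ p m (unitIdele p u) := by
    intro m
    rw [← PsiQ_mk m {pPrimes p} mem_singleton_pPrimes hp2,
      ← PsiQ_mk m {pPrimes p} mem_singleton_pPrimes hp2, hu]
  rw [h1, h1, psiQ_unitIdele, psiQ_unitIdele, map_pow, redUnits_zpUnitsMod]

end Red

end Psi

end

end Fermat.Agent.CFT.Global
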