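/-
P4 / Layer C5-PSI: norms from cyclic `p^n`-extensions of `ℚ` unramified outside `p` are killed by the
reciprocity character `PsiQ`, and conversely (pair language `(L, G)`, `V ⊲ G` with cyclic quotient
of order `p^n`; the extension is `L^V / ℚ`).

The proof is a counting argument: on `C_{p}(ℚ) ≅ ℤ_pˣ/±1` the kernel of `PsiQ` consists of
`p^n`-th powers, which are norms; both the kernel and the norm group have index `p^n`.
-/
import Fermat.Agent.Lib.CFT.Global.Recip.PsiKernel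
import Fermat.Agent.Lib.CFT.Global.CSProj
import Fermat.Agent.Lib.CFT.Global.CyclicLayers
import Fermat.Agent.Lib.CFT.Global.SecondIneq.Statement

set_option autoImplicit false
set_option linter.unusedSectionVars false
set_option linter.style.haveILetI false

namespace Fermat.Agent.CFT.Global

open Fermat.Agent.CFT.Coh.Herbrand Finset

noncomputable section

/-! ## The range and the kernel of `PsiQ` -/

section Range

variable {p : ℕ} [hp : Fact p.Prime] (n : ℕ) (S : Finset Nat.Primes) (hpS : pPrimes p ∈ S)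
  (hp2 : p ≠ 2)

lemma PsiQ_mem_zpowers (y : CS S ℚ) : PsiQ n S hpS hp2 y ∈ Subgroup.zpowers (oneAddP p n) := by
  obtain ⟨x, rfl⟩ := CS.mk_surjective S y
  exact psiQ_mem_zpowers n hp2 x

lemma card_range_PsiQ : Nat.card (PsiQ n S hpS hp2).range = p ^ n := by
  apply le_antisymm
  · have h1 : (PsiQ n S hpS hp2).range ≤ Subgroup.zpowers (oneAddP p n) := by
      rintro _ ⟨y, rfl⟩
      exact PsiQ_mem_zpowers n S hpS hp2 y
    calc Nat.card (PsiQ n S hpS hp2).range ≤ Nat.card (Subgroup.zpowers (oneAddP p n)) :=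
          Subgroup.card_le_of_le h1
      _ = p ^ n := by rw [Nat.card_zpowers, orderOf_oneAddP n hp2]
  · have h1 : Subgroup.zpowers (psiQ p n (aIdele p)) ≤ (PsiQ n S hpS hp2).range := by
      rw [Subgroup.zpowers_le]
      exact ⟨CS.mk S ℚ (aIdele p), rfl⟩
    calc p ^ n = Nat.card (Subgroup.zpowers (psiQ p n (aIdele p))) := by
          rw [Nat.card_zpowers, orderOf_psiQ_aIdele n hp2]
      _ ≤ Nat.card (PsiQ n S hpS hp2).range := Subgroup.card_le_of_le h1

lemma index_ker_PsiQ : (PsiQ n S hpS hp2).ker.index = p ^ n := by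
  rw [Subgroup.index_ker, card_range_PsiQ]

lemma PsiQ_proj (y : CS S ℚ) :
    PsiQ n {pPrimes p} mem_singleton_pPrimes hp2
      (CS.proj (Finset.singleton_subset_iff.2 hpS) ℚ y) = PsiQ n S hpS hp2 y := by
  obtain ⟨x, rfl⟩ := CS.mk_surjective S y
  rfl

end Range

/-! ## The norm group -/

section Norm

variable {p : ℕ} [hp : Fact p.Prime] (hp2 : p ≠ 2) {G L : Type} [Group G] [Finite G] [Field L]
  [NumberField L] [MulSemiringAction G L] [IsGaloisGroup G ℚ L]
  (S : Finset Nat.Primes) (hpS : pPrimes p ∈ S) (hunr : UnramifiedOutside S L)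
  (V : Subgroup G) [V.Normal] (n : ℕ) (hidx : V.index = p ^ n) (k₀ : G)
  (hk₀ : ∀ g : G ⧸ V, g ∈ Subgroup.zpowers (k₀ : G ⧸ V))

/-- the norm group `N_{L^V/ℚ} C_S(L^V)` as a subgroup of `C_S(ℚ)` -/
def normGroupQ (m : ℕ) : Subgroup (CS S ℚ) :=
  ((CS.invariants S V (L := L)).map (cycNorm (mulActEnd (CS S L) k₀) m)).comap
    (CS.map S (algebraMap ℚ L))

lemma range_map_algebraMap (hS : S.Nonempty) (hunr : UnramifiedOutside S L) :
    (CS.map S (algebraMap ℚ L)).range = CS.invariants S (⊤ : Subgroup G) (L := L) := by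
  ext c
  constructor
  · rintro ⟨y, rfl⟩ g
    exact CS.smul_map_algebraMap (g : G) y
  · intro hc
    obtain ⟨c₀, hc₀⟩ := CS.exists_map_eq_of_forall_smul_eq (K := ℚ) (L := L) (G := G) hS hunr c
      (fun g => hc ⟨g, Subgroup.mem_top g⟩)
    exact ⟨c₀, hc₀⟩

include hp2 hpS hunr hidx hk₀ in
lemma index_normGroupQ : (normGroupQ (L := L) S V k₀ (p ^ n)).index = p ^ n := by
  haveI : FaithfulSMul G L := IsGaloisGroup.faithful ℚ
  rw [normGroupQ, Subgroup.index_comap, range_map_algebraMap (G := G) S ⟨_, hpS⟩ hunr]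
  exact relIndex_map_cycNorm_invariants V k₀ hk₀ hidx hp2 ⟨_, hpS⟩ hunr
    (secondInequalityStatement p hp2)

include hidx hk₀ in
lemma mem_normGroupQ_iff {y : CS S ℚ} : y ∈ normGroupQ (L := L) S V k₀ (p ^ n) ↔
    ∃ b : CS S L, (∀ v ∈ V, v • b = b) ∧ CS.map S (algebraMap ℚ L) y = relNormProd V b := by
  have hcard : Nat.card (G ⧸ V) = p ^ n := by rw [← hidx]; rfl
  rw [normGroupQ, Subgroup.mem_comap, Subgroup.mem_map]
  constructor
  · rintro ⟨b, hb, hby⟩
    have hb' : ∀ v ∈ V, v • b = b := fun v hv => hb ⟨v, hv⟩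
    refine ⟨b, hb', ?_⟩
    rw [← hby, ← hcard, cycNorm_eq_relNormProd V k₀ hk₀ hb']
  · rintro ⟨b, hb, hby⟩
    refine ⟨b, fun v => hb v v.2, ?_⟩
    rw [hby, ← hcard, cycNorm_eq_relNormProd V k₀ hk₀ hb]

include hidx hk₀ in
/-- `p^n`-th powers are norms -/
lemma pow_mem_normGroupQ (z : CS S ℚ) : z ^ p ^ n ∈ normGroupQ (L := L) S V k₀ (p ^ n) := by
  rw [normGroupQ, Subgroup.mem_comap, Subgroup.mem_map]
  refine ⟨CS.map S (algebraMap ℚ L) z, fun v => CS.smul_map_algebraMap (v : G) z, ?_⟩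
  rw [cycNorm_apply, map_pow]
  have h1 : ∀ i ∈ range (p ^ n), (mulActEnd (CS S L) k₀ ^ i) (CS.map S (algebraMap ℚ L) z) =
      CS.map S (algebraMap ℚ L) z := by
    intro i _
    rw [mulActEnd_pow, mulActEnd_apply]
    exact CS.smul_map_algebraMap (k₀ ^ i) z
  rw [Finset.prod_congr rfl h1, Finset.prod_const, Finset.card_range]

end Norm

/-! ## The main theorems -/

section Main

variable {p : ℕ} [hp : Fact p.Prime] (hp2 : p ≠ 2) {G L : Type} [Group G] [Finite G] [Field L]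
  [NumberField L] [MulSemiringAction G L] [IsGaloisGroup G ℚ L]

/-- **(P1)** for `S = {p}`: norms from `L^V` are killed by `PsiQ` -/
theorem PsiQ_eq_one_of_relNormProd_singleton (hunr : UnramifiedOutside {pPrimes p} L)
    (V : Subgroup G) [V.Normal] (n : ℕ) (hidx : V.index = p ^ n) (k₀ : G)
    (hk₀ : ∀ g : G ⧸ V, g ∈ Subgroup.zpowers (k₀ : G ⧸ V))
    (b : CS {pPrimes p} L) (hb : ∀ v ∈ V, v • b = b) (y : CS {pPrimes p} ℚ)
    (hy : CS.map {pPrimes p} (algebraMap ℚ L) y = relNormProd V b) :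
    PsiQ n {pPrimes p} mem_singleton_pPrimes hp2 y = 1 := by
  have h1 : (PsiQ n {pPrimes p} mem_singleton_pPrimes hp2).ker ≤
      normGroupQ (L := L) {pPrimes p} V k₀ (p ^ n) := by
    intro x hx
    obtain ⟨z, rfl⟩ := exists_pow_eq_of_PsiQ_eq_one n hp2 x (MonoidHom.mem_ker.1 hx)
    exact pow_mem_normGroupQ {pPrimes p} V n hidx k₀ hk₀ z
  have h2 := Subgroup.relIndex_mul_index h1
  rw [index_normGroupQ hp2 {pPrimes p} mem_singleton_pPrimes hunr V n hidx k₀ hk₀,
    index_ker_PsiQ] at h2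
  have hpos : 0 < p ^ n := pow_pos hp.out.pos n
  have h3 : (PsiQ n {pPrimes p} mem_singleton_pPrimes hp2).ker.relIndex
      (normGroupQ (L := L) {pPrimes p} V k₀ (p ^ n)) = 1 :=
    Nat.eq_of_mul_eq_mul_right hpos (by rw [one_mul]; exact h2)
  have h4 := Subgroup.relIndex_eq_one.1 h3
  exact MonoidHom.mem_ker.1 (h4 ((mem_normGroupQ_iff {pPrimes p} V n hidx k₀ hk₀).2 ⟨b, hb, hy⟩))

/-- **(P2)** for general `S ∋ p` (the field still unramified outside `p`) -/
theorem PsiQ_eq_one_of_relNormProd (S : Finset Nat.Primes) (hpS : pPrimes p ∈ S)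
    (hunr : UnramifiedOutside {pPrimes p} L)
    (V : Subgroup G) [V.Normal] (n : ℕ) (hidx : V.index = p ^ n) (k₀ : G)
    (hk₀ : ∀ g : G ⧸ V, g ∈ Subgroup.zpowers (k₀ : G ⧸ V))
    (b : CS S L) (hb : ∀ v ∈ V, v • b = b) (y : CS S ℚ)
    (hy : CS.map S (algebraMap ℚ L) y = relNormProd V b) :
    PsiQ n S hpS hp2 y = 1 := by
  classical
  have hsub : ({pPrimes p} : Finset Nat.Primes) ⊆ S := Finset.singleton_subset_iff.2 hpS
  rw [← PsiQ_proj n S hpS hp2 y]
  refine PsiQ_eq_one_of_relNormProd_singleton hp2 hunr V n hidx k₀ hk₀ (CS.proj hsub L b)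
    (fun v hv => by rw [← CS.proj_smul, hb v hv]) _ ?_
  rw [← CS.proj_map, hy, relNormProd, relNormProd]
  letI := Fintype.ofFinite (G ⧸ V)
  rw [finprod_eq_prod_of_fintype, finprod_eq_prod_of_fintype, map_prod]
  exact Finset.prod_congr rfl fun q _ => CS.proj_smul hsub _ _

/-- unramified outside `p` implies unramified outside `S ∋ p` -/
lemma UnramifiedOutside.of_singleton {S : Finset Nat.Primes} (hpS : pPrimes p ∈ S)
    (hunr : UnramifiedOutside {pPrimes p} L) : UnramifiedOutside S L := by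
  intro r hr
  apply hunr r
  rw [Finset.mem_singleton]
  rintro rfl
  exact hr hpS

/-- **(P7)** the converse: the kernel of `PsiQ` consists of norms -/
theorem exists_relNormProd_eq_of_PsiQ_eq_one (S : Finset Nat.Primes) (hpS : pPrimes p ∈ S)
    (hunr : UnramifiedOutside {pPrimes p} L)
    (V : Subgroup G) [V.Normal] (n : ℕ) (hidx : V.index = p ^ n) (k₀ : G)
    (hk₀ : ∀ g : G ⧸ V, g ∈ Subgroup.zpowers (k₀ : G ⧸ V))
    (y : CS S ℚ) (hy : PsiQ n S hpS hp2 y = 1) :
    ∃ b : CS S L, (∀ v ∈ V, v • b = b) ∧ CS.map S (algebraMap ℚ L) y = relNormProd V b := by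
  have hunrS : UnramifiedOutside S L := UnramifiedOutside.of_singleton hpS hunr
  have h1 : normGroupQ (L := L) S V k₀ (p ^ n) ≤ (PsiQ n S hpS hp2).ker := by
    intro x hx
    obtain ⟨b, hb, hxb⟩ := (mem_normGroupQ_iff S V n hidx k₀ hk₀).1 hx
    exact MonoidHom.mem_ker.2 (PsiQ_eq_one_of_relNormProd hp2 S hpS hunr V n hidx k₀ hk₀ b hb x hxb)
  have h2 := Subgroup.relIndex_mul_index h1
  rw [index_normGroupQ hp2 S hpS hunrS V n hidx k₀ hk₀, index_ker_PsiQ] at h2
  have hpos : 0 < p ^ n := pow_pos hp.out.pos n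
  have h3 : (normGroupQ (L := L) S V k₀ (p ^ n)).relIndex (PsiQ n S hpS hp2).ker = 1 :=
    Nat.eq_of_mul_eq_mul_right hpos (by rw [one_mul]; exact h2)
  have h4 := Subgroup.relIndex_eq_one.1 h3
  exact (mem_normGroupQ_iff S V n hidx k₀ hk₀).1 (h4 (MonoidHom.mem_ker.2 hy))

end Main

end

end Fermat.Agent.CFT.Global
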