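/-
P4 / Layer C5-e: every class of `C_S(ℚ)` is a norm from `L ℚ_m` to `L` when `p^m ∣ [L : ℚ]`.

Abstract form `PsiNorm.exists_relNorm_eq_map`: let `L / ℚ` be Galois with group `G`, unramified
outside `S ∋ p`, containing a primitive `p^(m+1)`-th root of unity `ζ`; let
`θ = PsiNorm.theta G hζ = χ^(p-1) : G →* (ℤ/p^(m+1))ˣ` (so `ker θ = Gal(L/ℚ_m)`), and `N ≤ G` with
`p^m ∣ [G : N]`.  Given the reciprocity character `Ψ : C_S(ℚ) → (ℤ/p^(m+1))ˣ` descended from
`psiQ p m` which kills the norms from `ℚ_m` (outputs of C5-PSI, here hypotheses), every `a ∈ C_S(ℚ)`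
is, in `C_S(L)`, of the form `∏_{q ∈ N/(N ∩ ker θ)} q • b` with `b` fixed by `N ∩ ker θ` — the
hypothesis of `Coh.map_subtype_chiClass_eq_zero` (C3).

Proof: counting.  `Φ = Ψ ∘ N_{G/N}` on `C_S(L)^N` kills the norms from `C_S(L)^{N ∩ ker θ}`, which
have index `p^(m-i)` (cyclic layers, `relIndex_map_cycNorm_invariants`), `i` = the largest index with
`N ≤ Gal(L/ℚ_i)`; by C5-d (`exists_invariant_idele_psiQ_ne_one`) `Φ` takes a value `≢ 1 mod p^(i+2)`,
of order `≥ p^(m-i)` (`ZMod.orderOf_one_add_mul_prime_pow`).  So `ker Φ` is the norm group, and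
`Φ(a) = Ψ(a)^[G:N] = 1`.

Also: `PsiNorm.orderOf_natCast_of_modEq`, `natCast_pow_ne_one`, `unitsMap_eq_one_iff`,
`card_ker_unitsMap_pow` (arithmetic in `(ℤ/p^M)ˣ`); `psiQ_mem_range_pow`, `psiQ_pow_eq_one`,
`psiQ_zero`, `unitsMap_psiQ` (compatibility of the `psiQ p n`); `relNormHom` (relative norms:
`smul_relNormHom`, `relNormHom_of_invariant`, `relNormHom_trans`); `exists_level`;
`exists_idele_of_level` (C5-d in terms of `theta`).
-/
import Fermat.Agent.Lib.CFT.Global.Recip.PsiNonSplit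
import Fermat.Agent.Lib.CFT.Global.CyclicLayers
import Fermat.Agent.Lib.CFT.Global.SecondIneq.Statement
import Fermat.Agent.Lib.CFT.Global.Descent

set_option autoImplicit false
set_option linter.style.haveILetI false
set_option linter.unusedSectionVars false

namespace Fermat.Agent.CFT.Global

noncomputable section

namespace PsiNorm

/-! ## Arithmetic in `(ℤ/p^M)ˣ` -/

section ZModArith

variable {p : ℕ} [hp : Fact p.Prime]

/-- the order of `c` in `ℤ/p^M` when `c ≡ 1 mod p^s` exactly (`p` odd, `1 ≤ s ≤ M`) -/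
theorem orderOf_natCast_of_modEq (hp2 : p ≠ 2) {c M s : ℕ} (hs : 1 ≤ s) (hsM : s ≤ M)
    (h1 : c ≡ 1 [MOD p ^ s]) (h2 : ¬ c ≡ 1 [MOD p ^ (s + 1)]) :
    orderOf ((c : ℕ) : ZMod (p ^ M)) = p ^ (M - s) := by
  obtain ⟨n, rfl⟩ : ∃ n, M = n + s := ⟨M - s, by omega⟩
  rw [Nat.add_sub_cancel]
  rw [Nat.modEq_iff_dvd] at h1 h2
  obtain ⟨a', ha'⟩ := h1
  have hc : (c : ℤ) = 1 + (p : ℤ) ^ s * (-a') := by
    push_cast at ha'
    linarith
  have ha : ¬ (p : ℤ) ∣ -a' := by
    rintro ⟨b, hb⟩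
    apply h2
    refine ⟨-b, ?_⟩
    push_cast at ha' ⊢
    rw [ha', pow_succ]
    have : a' = -(p * b) := by linarith
    rw [this]
    ring
  have hpm : s + 2 ≤ p * s := by
    have h3 : 3 ≤ p := by
      have := hp.out.two_le
      omega
    nlinarith
  have h3 := ZMod.orderOf_one_add_mul_prime_pow hp.out s (by omega) hpm (-a') ha n
  rw [← h3]
  congr 1
  have h4 : ((c : ℕ) : ZMod (p ^ (n + s))) = (((c : ℕ) : ℤ) : ZMod (p ^ (n + s))) := by
    rw [Int.cast_natCast]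
  rw [h4, hc]
  push_cast
  ring

/-- a principal unit which is not `≡ 1 mod p^(j+1)` has order at least `p^(M-j)` -/
theorem natCast_pow_ne_one (hp2 : p ≠ 2) {c M j : ℕ} (hj : j + 1 ≤ M)
    (h1 : c ≡ 1 [MOD p]) (h2 : ¬ c ≡ 1 [MOD p ^ (j + 1)]) :
    ((c : ℕ) : ZMod (p ^ M)) ^ p ^ (M - j - 1) ≠ 1 := by
  classical
  -- the largest `s ≤ j` with `c ≡ 1 mod p^s`
  have hex : ∃ s, s ≤ j ∧ 1 ≤ s ∧ c ≡ 1 [MOD p ^ s] ∧ ¬ c ≡ 1 [MOD p ^ (s + 1)] := by
    by_contra hne
    simp only [not_exists, not_and, not_not] at hne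
    have key : ∀ s, 1 ≤ s → s ≤ j + 1 → c ≡ 1 [MOD p ^ s] := by
      intro s hs
      induction s, hs using Nat.le_induction with
      | base => intro _; rwa [pow_one]
      | succ s hs ih =>
        intro hsj
        exact hne s (by omega) hs (ih (by omega))
    exact h2 (key (j + 1) (by omega) le_rfl)
  obtain ⟨s, hsj, hs1, hs2, hs3⟩ := hex
  have hord := orderOf_natCast_of_modEq hp2 hs1 (by omega : s ≤ M) hs2 hs3
  intro h
  have hdvd := orderOf_dvd_of_pow_eq_one h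
  rw [hord] at hdvd
  have := (Nat.pow_dvd_pow_iff_le_right hp.out.one_lt).1 hdvd
  omega

/-- the reduction `(ℤ/N)ˣ → (ℤ/n)ˣ` kills `x` iff `x ≡ 1 mod n` -/
theorem unitsMap_eq_one_iff {n N : ℕ} [NeZero N] (h : n ∣ N) (x : (ZMod N)ˣ) :
    ZMod.unitsMap h x = 1 ↔ ((x : (ZMod N)ˣ) : ZMod N).val ≡ 1 [MOD n] := by
  rw [← ZMod.natCast_eq_natCast_iff, Nat.cast_one, ZMod.natCast_val, Units.ext_iff,
    ZMod.unitsMap_def, Units.coe_map, Units.val_one, MonoidHom.coe_coe, ZMod.castHom_apply]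

/-- the kernel of `(ℤ/p^M)ˣ → (ℤ/p^s)ˣ` has order `p^(M-s)` for `1 ≤ s ≤ M` -/
theorem card_ker_unitsMap_pow {s M : ℕ} (hs : 1 ≤ s) (hsM : s ≤ M) :
    Nat.card (ZMod.unitsMap (pow_dvd_pow p hsM)).ker = p ^ (M - s) := by
  set f := ZMod.unitsMap (pow_dvd_pow p hsM) with hf
  have hsurj : Function.Surjective f := ZMod.unitsMap_surjective _
  have h1 : Nat.card (ZMod (p ^ M))ˣ = Nat.card ((ZMod (p ^ M))ˣ ⧸ f.ker) *
      Nat.card f.ker := Subgroup.card_eq_card_quotient_mul_card_subgroup _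
  have h2 : Nat.card ((ZMod (p ^ M))ˣ ⧸ f.ker) = Nat.card (ZMod (p ^ s))ˣ :=
    Nat.card_congr (QuotientGroup.quotientKerEquivOfSurjective f hsurj).toEquiv
  rw [h2, Nat.card_eq_fintype_card, Nat.card_eq_fintype_card, ZMod.card_units_eq_totient,
    ZMod.card_units_eq_totient] at h1
  obtain ⟨s', rfl⟩ : ∃ s', s = s' + 1 := ⟨s - 1, by omega⟩
  obtain ⟨d, rfl⟩ : ∃ d, M = d + (s' + 1) := ⟨M - (s' + 1), by omega⟩
  have e1 : (p ^ (d + (s' + 1))).totient = p ^ (d + s') * (p - 1) :=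
    Nat.totient_prime_pow_succ hp.out (d + s')
  have e2 : (p ^ (s' + 1)).totient = p ^ s' * (p - 1) := Nat.totient_prime_pow_succ hp.out s'
  rw [e1, e2] at h1
  have hpos : 0 < p ^ s' * (p - 1) :=
    Nat.mul_pos (pow_pos hp.out.pos _) (Nat.sub_pos_of_lt hp.out.one_lt)
  have h3 : p ^ s' * (p - 1) * p ^ d = p ^ s' * (p - 1) * Nat.card f.ker := by
    rw [← h1, pow_add]
    ring
  rw [Nat.add_sub_cancel]
  exact (Nat.eq_of_mul_eq_mul_left hpos h3).symm

end ZModArith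

/-! ## Complements on `psiQ` -/

section PsiFacts

variable (p : ℕ) [hp : Fact p.Prime] (n : ℕ)

/-- `psiQ` takes values in the `(p-1)`-th powers -/
theorem psiQ_mem_range_pow (x : FinIdele ℚ) :
    psiQ p n x ∈ (powMonoidHom (p - 1) : (ZMod (p ^ (n + 1)))ˣ →* (ZMod (p ^ (n + 1)))ˣ).range := by
  rw [psiQ_apply]
  refine mul_mem (MonoidHom.mem_range.2 ⟨_, rfl⟩)
    (finprod_induction _ (one_mem _) (fun _ _ => mul_mem) (fun q => ?_))
  rw [psiAway_apply]
  exact zpow_mem (MonoidHom.mem_range.2 ⟨_, rfl⟩) _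

/-- the values of `psiQ p n` are killed by `p^n` -/
theorem psiQ_pow_eq_one (x : FinIdele ℚ) : psiQ p n x ^ p ^ n = 1 := by
  obtain ⟨y, hy⟩ := psiQ_mem_range_pow p n x
  rw [← hy, powMonoidHom_apply, ← pow_mul]
  have hcard : Nat.card (ZMod (p ^ (n + 1)))ˣ = (p - 1) * p ^ n := by
    rw [Nat.card_eq_fintype_card, ZMod.card_units_eq_totient, Nat.totient_prime_pow_succ hp.out,
      mul_comm]
  rw [← hcard]
  exact pow_card_eq_one'

theorem psiQ_zero (x : FinIdele ℚ) : psiQ p 0 x = 1 := by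
  have h := psiQ_pow_eq_one p 0 x
  simpa using h

variable {n} in
/-- compatibility of the characters `psiQ p n` -/
theorem unitsMap_psiQ {n' : ℕ} (h : n' ≤ n) (x : FinIdele ℚ) :
    ZMod.unitsMap (pow_dvd_pow p (Nat.succ_le_succ h)) (psiQ p n x) = psiQ p n' x := by
  set f := ZMod.unitsMap (pow_dvd_pow p (Nat.succ_le_succ h)) with hf
  have hunit : ∀ (q : Nat.Primes) (hq : (q : ℕ) ≠ p),
      f (primeUnitMod p n q hq) = primeUnitMod p n' q hq := by
    intro q hq
    apply Units.ext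
    rw [hf, ZMod.unitsMap_def, Units.coe_map, MonoidHom.coe_coe, primeUnitMod, primeUnitMod,
      ZMod.coe_unitOfCoprime, ZMod.coe_unitOfCoprime, map_natCast]
  rw [psiQ_apply, psiQ_apply, map_mul, MonoidHom.map_finprod _ (finite_mulSupport_psiAway p n x)]
  congr 1
  · unfold psiAtP
    simp only [MonoidHom.comp_apply, powMonoidHom_apply, map_pow]
    congr 1
    apply Units.ext
    rw [hf, ZMod.unitsMap_def, Units.coe_map, Units.coe_map, Units.coe_map, MonoidHom.coe_coe,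
      MonoidHom.coe_coe, MonoidHom.coe_coe, ZMod.castHom_apply,
      PadicInt.cast_toZModPow _ _ (Nat.succ_le_succ h)]
  · refine finprod_congr (fun q => ?_)
    rw [psiAway_apply, psiAway_apply, map_zpow, map_pow, map_inv, hunit]

end PsiFacts

/-! ## Relative norms (multiplicative) -/

section RelNorm

variable {G : Type*} [Group G] [Finite G] {M : Type*} [CommGroup M] [MulDistribMulAction G M]

/-- the relative norm `c ↦ ∏_{q ∈ G/H} q • c` as a homomorphism -/
def relNormHom (H : Subgroup G) : M →* M where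
  toFun c := ∏ᶠ q : G ⧸ H, (q.out : G) • c
  map_one' := by simp
  map_mul' c d := by
    simp only [smul_mul']
    exact finprod_mul_distrib (Set.toFinite _) (Set.toFinite _)

lemma relNormHom_apply (H : Subgroup G) (c : M) :
    relNormHom H c = ∏ᶠ q : G ⧸ H, (q.out : G) • c := rfl

omit [Finite G] in
/-- on `H`-invariant elements, `q.out • c` only depends on the coset -/
lemma out_smul_of_invariant (H : Subgroup G) {c : M} (hc : ∀ h ∈ H, h • c = c) (x : G) :
    ((x : G ⧸ H).out : G) • c = x • c := by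
  obtain ⟨v, hv⟩ := QuotientGroup.mk_out_eq_mul H x
  rw [hv, mul_smul, hc v v.2]

/-- the norm of an `H`-invariant element is `G`-invariant -/
theorem smul_relNormHom (H : Subgroup G) {c : M} (hc : ∀ h ∈ H, h • c = c) (g : G) :
    g • relNormHom H c = relNormHom H c := by
  classical
  letI : Fintype (G ⧸ H) := Fintype.ofFinite _
  rw [relNormHom_apply, finprod_eq_prod_of_fintype, Finset.smul_prod']
  have h1 : ∀ q : G ⧸ H, g • (q.out : G) • c = ((g • q : G ⧸ H).out : G) • c := by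
    intro q
    have h2 : (g • q : G ⧸ H) = QuotientGroup.mk (g * q.out) := by
      conv_lhs => rw [← QuotientGroup.out_eq' q]
      rfl
    rw [h2, out_smul_of_invariant H hc, mul_smul]
  rw [Finset.prod_congr rfl (fun q _ => h1 q)]
  exact Fintype.prod_equiv (MulAction.toPerm g) _ _ (fun q => rfl)

/-- the norm of a `G`-invariant element is its power by the index -/
theorem relNormHom_of_invariant (H : Subgroup G) {c : M} (hc : ∀ g : G, g • c = c) :
    relNormHom H c = c ^ H.index := by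
  classical
  letI : Fintype (G ⧸ H) := Fintype.ofFinite _
  rw [relNormHom_apply, finprod_eq_prod_of_fintype,
    Finset.prod_congr rfl (fun q _ => hc (q.out : G)), Finset.prod_const, Finset.card_univ,
    Subgroup.index_eq_card, Nat.card_eq_fintype_card]

/-- **transitivity of the relative norm** -/
theorem relNormHom_trans {W H : Subgroup G} (h : W ≤ H) {c : M} (hc : ∀ w ∈ W, w • c = c) :
    relNormHom W c =
      relNormHom H (∏ᶠ t : ↥H ⧸ W.subgroupOf H, (((t.out : ↥H) : G)) • c) := by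
  classical
  letI : Fintype (G ⧸ W) := Fintype.ofFinite _
  letI : Fintype (G ⧸ H) := Fintype.ofFinite _
  letI : Fintype (↥H ⧸ W.subgroupOf H) := Fintype.ofFinite _
  rw [relNormHom_apply, relNormHom_apply, finprod_eq_prod_of_fintype, finprod_eq_prod_of_fintype,
    finprod_eq_prod_of_fintype]
  simp only [Finset.smul_prod']
  rw [← Fintype.prod_prod_type' (f := fun (r : G ⧸ H) (t : ↥H ⧸ W.subgroupOf H) =>
    (r.out : G) • (((t.out : ↥H) : G)) • c)]
  refine Fintype.prod_equiv (Subgroup.quotientEquivProdOfLE h) _ _ (fun q => ?_)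
  obtain ⟨⟨r, t⟩, rfl⟩ := (Subgroup.quotientEquivProdOfLE h).symm.surjective q
  rw [Equiv.apply_symm_apply]
  have h2 : (Subgroup.quotientEquivProdOfLE h).symm (r, t) =
      (QuotientGroup.mk (r.out * (t.out : ↥H).1) : G ⧸ W) := by
    conv_lhs => rw [← QuotientGroup.out_eq' t]
    rfl
  rw [h2, out_smul_of_invariant W hc, mul_smul]

end RelNorm

section Level

variable {p : ℕ} [hp : Fact p.Prime] {m : ℕ} {G : Type*} [Group G]

omit hp in
lemma val_modEq_one_iff_eq_one [Fact p.Prime] (x : (ZMod (p ^ (m + 1)))ˣ) :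
    ((x : (ZMod (p ^ (m + 1)))ˣ) : ZMod (p ^ (m + 1))).val ≡ 1 [MOD p ^ (m + 1)] ↔ x = 1 := by
  have hp' : p.Prime := Fact.out
  have h1 : 1 < p ^ (m + 1) := Nat.one_lt_pow (Nat.succ_ne_zero m) hp'.one_lt
  constructor
  · intro h
    have h2 := Nat.ModEq.eq_of_lt_of_lt h (ZMod.val_lt _) h1
    apply Units.ext
    apply ZMod.val_injective
    rw [h2, Units.val_one, ZMod.val_one'' h1.ne']
  · rintro rfl
    rw [Units.val_one, ZMod.val_one'' h1.ne']

/-- the position of the image of a subgroup in the filtration of the principal units -/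
theorem exists_level (hp2 : p ≠ 2) (θ : G →* (ZMod (p ^ (m + 1)))ˣ)
    (hθ : ∀ g, ((θ g : (ZMod (p ^ (m + 1)))ˣ) : ZMod (p ^ (m + 1))).val ≡ 1 [MOD p])
    (N : Subgroup G) (hN : ∃ n ∈ N, θ n ≠ 1) :
    ∃ i, i < m ∧
      (∀ n ∈ N, ((θ n : (ZMod (p ^ (m + 1)))ˣ) : ZMod (p ^ (m + 1))).val ≡ 1 [MOD p ^ (i + 1)]) ∧
      ∃ g₀ ∈ N,
        ¬ ((θ g₀ : (ZMod (p ^ (m + 1)))ˣ) : ZMod (p ^ (m + 1))).val ≡ 1 [MOD p ^ (i + 1 + 1)] ∧
        orderOf (θ g₀) = p ^ (m - i) ∧ ∀ n ∈ N, θ n ∈ Subgroup.zpowers (θ g₀) := by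
  classical
  set Fix : ℕ → Prop := fun r =>
    ∀ n ∈ N, ((θ n : (ZMod (p ^ (m + 1)))ˣ) : ZMod (p ^ (m + 1))).val ≡ 1 [MOD p ^ (r + 1)]
    with hFix
  have h0 : Fix 0 := fun n _ => by
    rw [zero_add, pow_one]
    exact hθ n
  have hm : ¬ Fix m := by
    obtain ⟨n₁, hn₁, hne⟩ := hN
    intro h
    exact hne ((val_modEq_one_iff_eq_one _).1 (h n₁ hn₁))
  set i := Nat.findGreatest Fix m with hi
  have hile : i ≤ m := Nat.findGreatest_le m
  have hFi : Fix i := Nat.findGreatest_spec (Nat.zero_le m) h0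
  have him : i < m := by
    rcases Nat.lt_or_ge i m with h | h
    · exact h
    · exfalso
      have : i = m := le_antisymm hile h
      rw [this] at hFi
      exact hm hFi
  have hFi1 : ¬ Fix (i + 1) := Nat.findGreatest_is_greatest (Nat.lt_succ_self i) him
  simp only [hFix, not_forall] at hFi1
  obtain ⟨g₀, hg₀N, hg₀⟩ := hFi1
  refine ⟨i, him, hFi, g₀, hg₀N, hg₀, ?_⟩
  have hord : orderOf (θ g₀) = p ^ (m - i) := by
    have h1 := orderOf_natCast_of_modEq hp2 (Nat.succ_le_succ (Nat.zero_le i))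
      (Nat.succ_le_succ hile) (hFi g₀ hg₀N) hg₀
    rw [ZMod.natCast_zmod_val, orderOf_units, Nat.succ_sub_succ] at h1
    exact h1
  refine ⟨hord, ?_⟩
  set Ki := (ZMod.unitsMap (pow_dvd_pow p (Nat.succ_le_succ hile))).ker with hKi
  have hcard : Nat.card Ki = p ^ (m - i) := by
    rw [hKi, card_ker_unitsMap_pow (Nat.succ_le_succ (Nat.zero_le i)) (Nat.succ_le_succ hile),
      Nat.succ_sub_succ]
  have hmem : ∀ n ∈ N, θ n ∈ Ki := by
    intro n hn
    rw [hKi, MonoidHom.mem_ker, unitsMap_eq_one_iff]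
    exact hFi n hn
  have hle : Subgroup.zpowers (θ g₀) ≤ Ki := by
    rw [Subgroup.zpowers_le]
    exact hmem g₀ hg₀N
  have heq : Subgroup.zpowers (θ g₀) = Ki := by
    refine Subgroup.eq_of_le_of_card_ge hle ?_
    rw [Nat.card_zpowers, hord, hcard]
  intro n hn
  rw [heq]
  exact hmem n hn

end Level

section Theta

variable {p : ℕ} [hp : Fact p.Prime] {m : ℕ}

/-- `(p-1)`-th powers are principal units -/
lemma val_pow_pred_modEq_one (y : (ZMod (p ^ (m + 1)))ˣ) :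
    ((y ^ (p - 1) : (ZMod (p ^ (m + 1)))ˣ) : ZMod (p ^ (m + 1))).val ≡ 1 [MOD p] := by
  have h : p ^ (0 + 1) ∣ p ^ (m + 1) := pow_dvd_pow p (Nat.succ_le_succ (Nat.zero_le m))
  have h1 : ZMod.unitsMap h (y ^ (p - 1)) = 1 := by
    rw [map_pow]
    have hcard : Nat.card (ZMod (p ^ (0 + 1)))ˣ = p - 1 := by
      rw [Nat.card_eq_fintype_card, ZMod.card_units_eq_totient,
        Nat.totient_prime_pow_succ hp.out, pow_zero, one_mul]
    rw [← hcard]
    exact pow_card_eq_one'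
  rw [unitsMap_eq_one_iff, zero_add, pow_one] at h1
  exact h1

variable {L : Type} [Field L] (G : Type) [Group G] [MulSemiringAction G L] {ζ : L}

/-- `g ↦ χ(g)^(p-1)`, the character of `Gal(ℚ_m/ℚ)` -/
def theta (hζ : IsPrimitiveRoot ζ (p ^ (m + 1))) : G →* (ZMod (p ^ (m + 1)))ˣ :=
  (powMonoidHom (p - 1)).comp (PsiNonSplit.cycloChar hζ)

variable {G}

lemma theta_apply (hζ : IsPrimitiveRoot ζ (p ^ (m + 1))) (g : G) :
    theta G hζ g = PsiNonSplit.cycloChar hζ g ^ (p - 1) := rfl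

lemma val_theta_modEq_one (hζ : IsPrimitiveRoot ζ (p ^ (m + 1))) (g : G) :
    ((theta G hζ g : (ZMod (p ^ (m + 1)))ˣ) : ZMod (p ^ (m + 1))).val ≡ 1 [MOD p] :=
  val_pow_pred_modEq_one _

/-- the exponent of the action of `g` on `ζ` -/
def expo (hζ : IsPrimitiveRoot ζ (p ^ (m + 1))) (g : G) : ℕ :=
  ((PsiNonSplit.cycloChar hζ g : (ZMod (p ^ (m + 1)))ˣ) : ZMod (p ^ (m + 1))).val

lemma smul_eq_pow_expo (hζ : IsPrimitiveRoot ζ (p ^ (m + 1))) (g : G) :
    g • ζ = ζ ^ expo hζ g := (PsiNonSplit.cycloChar_spec hζ g).symm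

lemma val_theta_modEq (hζ : IsPrimitiveRoot ζ (p ^ (m + 1))) (g : G) :
    ((theta G hζ g : (ZMod (p ^ (m + 1)))ˣ) : ZMod (p ^ (m + 1))).val ≡
      expo hζ g ^ (p - 1) [MOD p ^ (m + 1)] := by
  rw [← ZMod.natCast_eq_natCast_iff, ZMod.natCast_zmod_val, Nat.cast_pow, expo,
    ZMod.natCast_zmod_val, theta_apply, Units.val_pow_eq_pow_val]

end Theta

section Idele

variable {p : ℕ} [hp : Fact p.Prime] {m : ℕ} {G L : Type} [Group G] [Finite G] [Field L]
  [NumberField L] [MulSemiringAction G L] [IsGaloisGroup G ℚ L] {ζ : L}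

/-- **C5-d in terms of `theta`**: if `N` fixes `ℚ_i` but not `ℚ_{i+1}` (`i < m`), there is an
`N`-invariant idele whose norm to `ℚ` has `psiQ p m`-value `≢ 1 mod p^(i+2)`. -/
theorem exists_idele_of_level (hp2 : p ≠ 2) (hζ : IsPrimitiveRoot ζ (p ^ (m + 1)))
    (N : Subgroup G) {i : ℕ} (him : i < m)
    (hFix : ∀ n ∈ N,
      ((theta G hζ n : (ZMod (p ^ (m + 1)))ˣ) : ZMod (p ^ (m + 1))).val ≡ 1 [MOD p ^ (i + 1)])
    {g₀ : G} (hg₀N : g₀ ∈ N)
    (hg₀ : ¬ ((theta G hζ g₀ : (ZMod (p ^ (m + 1)))ˣ) : ZMod (p ^ (m + 1))).val ≡ 1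
      [MOD p ^ (i + 1 + 1)]) :
    ∃ (X : FinIdele L) (Y : FinIdele ℚ), (∀ g ∈ N, g • X = X) ∧
      (∏ᶠ g : G ⧸ N, (Quotient.out g : G) • X = FinIdele.map (algebraMap ℚ L) Y) ∧
      ¬ ((psiQ p m Y : (ZMod (p ^ (m + 1)))ˣ) : ZMod (p ^ (m + 1))).val ≡ 1
        [MOD p ^ (i + 1 + 1)] := by
  have hpow : p ^ (m + 1) = p ^ (m - i - 1) * p ^ (i + 2) := by
    rw [← pow_add]
    congr 1
    omega
  have hζ' : IsPrimitiveRoot (ζ ^ p ^ (m - i - 1)) (p ^ (i + 2)) :=
    hζ.pow (pow_pos hp.out.pos _) hpow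
  have hd1 : p ^ (i + 1) ∣ p ^ (i + 2) := pow_dvd_pow p (Nat.le_succ _)
  have hd2 : p ^ (i + 2) ∣ p ^ (m + 1) := pow_dvd_pow p (by omega)
  have hsm : ∀ g : G, g • (ζ ^ p ^ (m - i - 1)) = (ζ ^ p ^ (m - i - 1)) ^ expo hζ g := by
    intro g
    rw [smul_pow', smul_eq_pow_expo hζ g, ← pow_mul, ← pow_mul, mul_comm]
  have hmod : ∀ (g : G) (c : ℕ), g • (ζ ^ p ^ (m - i - 1)) = (ζ ^ p ^ (m - i - 1)) ^ c →
      c ≡ expo hζ g [MOD p ^ (i + 2)] := by
    intro g c hc
    rw [hsm g] at hc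
    have hkpos : 0 < p ^ (i + 2) := pow_pos hp.out.pos _
    exact hζ'.pow_inj (Nat.mod_lt _ hkpos) (Nat.mod_lt _ hkpos)
      (by rw [← pow_eq_pow_mod c hζ'.pow_eq_one, ← pow_eq_pow_mod _ hζ'.pow_eq_one, hc])
  have hN0 : ∀ g ∈ N, ∀ c : ℕ, g • (ζ ^ p ^ (m - i - 1)) = (ζ ^ p ^ (m - i - 1)) ^ c →
      ((c : ZMod (p ^ (i + 1))) ^ (p - 1) = 1) := by
    intro g hg c hc
    have h1 : c ^ (p - 1) ≡ 1 [MOD p ^ (i + 1)] := by
      have h2 : c ≡ expo hζ g [MOD p ^ (i + 1)] := (hmod g c hc).of_dvd hd1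
      have h3 : ((theta G hζ g : (ZMod (p ^ (m + 1)))ˣ) : ZMod (p ^ (m + 1))).val ≡
          expo hζ g ^ (p - 1) [MOD p ^ (i + 1)] :=
        (val_theta_modEq hζ g).of_dvd (pow_dvd_pow p (by omega))
      exact (h2.pow _).trans (h3.symm.trans (hFix g hg))
    rw [← Nat.cast_pow, ← Nat.cast_one (R := ZMod (p ^ (i + 1))), ZMod.natCast_eq_natCast_iff]
    exact h1
  have hN1 : ∃ g ∈ N, ∃ c : ℕ, g • (ζ ^ p ^ (m - i - 1)) = (ζ ^ p ^ (m - i - 1)) ^ c ∧
      ((c : ZMod (p ^ (i + 2))) ^ (p - 1) ≠ 1) := by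
    refine ⟨g₀, hg₀N, expo hζ g₀, hsm g₀, fun h => hg₀ ?_⟩
    rw [← Nat.cast_pow, ← Nat.cast_one (R := ZMod (p ^ (i + 2))), ZMod.natCast_eq_natCast_iff] at h
    exact ((val_theta_modEq hζ g₀).of_dvd hd2).trans h
  obtain ⟨X, Y, hX, hXY, hY⟩ := exists_invariant_idele_psiQ_ne_one hp2 N i _ hζ' hN0 hN1
  refine ⟨X, Y, hX, hXY, fun h => hY ?_⟩
  have h1 : i + 1 ≤ m := him
  rw [← unitsMap_psiQ p h1 Y, unitsMap_eq_one_iff]
  exact h

end Idele

section Main

open Fermat.Agent.CFT.Coh.Herbrand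

variable {p : ℕ} [hp : Fact p.Prime] {S : Finset Nat.Primes} {m : ℕ} {G L : Type} [Group G]
  [Finite G] [Field L] [NumberField L] [MulSemiringAction G L] [IsGaloisGroup G ℚ L] {ζ : L}

/-- **C5-e, abstract form.**  Let `L / ℚ` be Galois with group `G`, unramified outside `S ∋ p`,
containing the `p^(m+1)`-th roots of unity, `θ = χ^(p-1)` (so `ker θ = Gal(L/ℚ_m)`), and `N ≤ G` a
subgroup whose index is divisible by `p^m`.  Assume that the reciprocity character `Ψ` (descended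
from `psiQ p m`) kills the norms from `ℚ_m`.  Then every class of `C_S(ℚ)` is, in `C_S(L)`, the
relative norm from `L^{N ∩ ker θ} = L^N ℚ_m` to `L^N` of a class `b`. -/
theorem exists_relNorm_eq_map (hp2 : p ≠ 2) (hpS : pPrimes p ∈ S) (hunr : UnramifiedOutside S L)
    (hζ : IsPrimitiveRoot ζ (p ^ (m + 1))) (N : Subgroup G) (hNm : p ^ m ∣ N.index)
    (Ψ : CS S ℚ →* (ZMod (p ^ (m + 1)))ˣ) (hΨ : ∀ x : FinIdele ℚ, Ψ (CS.mk S ℚ x) = psiQ p m x)
    (hker : ∀ z : CS S L, (∀ v : G, theta G hζ v = 1 → v • z = z) → ∀ y : CS S ℚ,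
      CS.map S (algebraMap ℚ L) y = ∏ᶠ g : G ⧸ (theta G hζ).ker, (g.out : G) • z → Ψ y = 1)
    (a : CS S ℚ) :
    ∃ b : CS S L, (∀ n ∈ N, theta G hζ n = 1 → n • b = b) ∧
      ∏ᶠ q : ↥N ⧸ ((theta G hζ).ker.subgroupOf N), (((q.out : ↥N) : G)) • b =
        CS.map S (algebraMap ℚ L) a := by
  classical
  have hS : S.Nonempty := ⟨_, hpS⟩
  haveI : FaithfulSMul G L := IsGaloisGroup.faithful ℚ
  set θ := theta G hζ with hθ
  set ι := CS.map S (algebraMap ℚ L) with hι
  have hinj : Function.Injective ι := CS.map_algebraMap_injective G hS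
  have hdesc : ∀ c : CS S L, (∀ g : G, g • c = c) → ∃ y, ι y = c :=
    fun c hc => CS.exists_map_eq_of_forall_smul_eq hS hunr c hc
  have hιinv : ∀ (g : G) (y : CS S ℚ), g • ι y = ι y := fun g y => CS.smul_map_algebraMap g y
  by_cases hcase : ∀ n ∈ N, θ n = 1
  · -- trivial case: `N` fixes `ℚ_m`
    refine ⟨ι a, fun n _ _ => hιinv n a, ?_⟩
    have htop : θ.ker.subgroupOf N = ⊤ := by
      rw [Subgroup.subgroupOf_eq_top]
      intro n hn
      exact MonoidHom.mem_ker.2 (hcase n hn)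
    haveI : Subsingleton (↥N ⧸ θ.ker.subgroupOf N) := by
      rw [htop]
      exact QuotientGroup.subsingleton_quotient_top
    haveI : Unique (↥N ⧸ θ.ker.subgroupOf N) := uniqueOfSubsingleton (QuotientGroup.mk 1)
    rw [finprod_unique, hιinv]
  · simp only [not_forall] at hcase
    obtain ⟨n₁, hn₁, hne₁⟩ := hcase
    obtain ⟨i, him, hFix, g₀, hg₀N, hg₀, hord₀, hzp⟩ :=
      exists_level hp2 θ (val_theta_modEq_one hζ) N ⟨n₁, hn₁, hne₁⟩
    obtain ⟨X, Y, hX, hXY, hY⟩ := exists_idele_of_level hp2 hζ N him hFix hg₀N hg₀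
    -- the cyclic layer `N / (N ∩ ker θ)`
    set V : Subgroup ↥N := θ.ker.subgroupOf N with hV
    set k₀ : ↥N := ⟨g₀, hg₀N⟩ with hk₀def
    have hk₀ : ∀ q : ↥N ⧸ V, q ∈ Subgroup.zpowers ((k₀ : ↥N) : ↥N ⧸ V) := by
      intro q
      induction q using QuotientGroup.induction_on with | H n =>
      obtain ⟨z, hz⟩ := Subgroup.mem_zpowers_iff.1 (hzp n n.2)
      rw [Subgroup.mem_zpowers_iff]
      refine ⟨z, ?_⟩
      rw [← QuotientGroup.mk_zpow, QuotientGroup.eq, hV, Subgroup.mem_subgroupOf,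
        MonoidHom.mem_ker]
      have h1 : (((k₀ ^ z)⁻¹ * n : ↥N) : G) = (g₀ ^ z)⁻¹ * (n : G) := by
        rw [Subgroup.coe_mul, Subgroup.coe_inv, Subgroup.coe_zpow]
      rw [h1, map_mul, map_inv, map_zpow, hz, inv_mul_cancel]
    have hidx : V.index = p ^ (m - i) := by
      have h1 : V = (θ.comp N.subtype).ker := by
        rw [hV, Subgroup.subgroupOf, MonoidHom.comap_ker]
      have h2 : (θ.comp N.subtype).range = Subgroup.zpowers (θ g₀) := by
        apply le_antisymm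
        · rintro _ ⟨n, rfl⟩
          exact hzp n n.2
        · rw [Subgroup.zpowers_le]
          exact ⟨k₀, rfl⟩
      rw [h1, Subgroup.index_ker, h2, Nat.card_zpowers, hord₀]
    have hC5a := relIndex_map_cycNorm_invariants (S := S) (L := L) V k₀ hk₀ hidx hp2 hS hunr
      (secondInequalityStatement p hp2)
    set A₁ : Subgroup (CS S L) := CS.invariants S (⊤ : Subgroup ↥N) (L := L) with hA₁
    set A₂ : Subgroup (CS S L) := CS.invariants S V (L := L) with hA₂
    set nm := cycNorm (mulActEnd (CS S L) k₀) (p ^ (m - i)) with hnmdef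
    -- `A₁` = the `N`-invariants, `A₂` = the `N ∩ ker θ`-invariants
    have hA₁mem : ∀ c : CS S L, c ∈ A₁ ↔ ∀ n ∈ N, n • c = c := by
      intro c
      constructor
      · intro hc n hn
        exact hc ⟨⟨n, hn⟩, Subgroup.mem_top _⟩
      · intro hc v
        exact hc _ (v : ↥N).2
    have hA₂mem : ∀ c : CS S L, c ∈ A₂ ↔ ∀ n ∈ N, θ n = 1 → n • c = c := by
      intro c
      constructor
      · intro hc n hn hθn
        exact hc ⟨⟨n, hn⟩, Subgroup.mem_subgroupOf.2 (MonoidHom.mem_ker.2 hθn)⟩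
      · intro hc v
        exact hc _ (v : ↥N).2 (MonoidHom.mem_ker.1 (Subgroup.mem_subgroupOf.1 v.2))
    -- on `A₂` the cyclic norm is the relative norm
    have hnm : ∀ b ∈ A₂, nm b = ∏ᶠ q : ↥N ⧸ V, (((q.out : ↥N) : G)) • b := by
      intro b hb
      have h1 := cycNorm_eq_relNormProd (M := CS S L) V k₀ hk₀ (c := b) (fun v hv => hb ⟨v, hv⟩)
      rw [← Subgroup.index_eq_card, hidx] at h1
      exact h1
    -- the character `Φ = Ψ ∘ N_{G/N}` on the `N`-invariants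
    set normG : CS S L →* CS S L := relNormHom N with hnormG
    have hnormGinv : ∀ c ∈ A₁, ∀ g : G, g • normG c = normG c := fun c hc g =>
      smul_relNormHom N ((hA₁mem c).1 hc) g
    have hrange : ∀ c : ↥A₁, (normG.comp A₁.subtype) c ∈ ι.range := by
      intro c
      obtain ⟨y, hy⟩ := hdesc _ (hnormGinv c.1 c.2)
      exact ⟨y, hy⟩
    let ιe : CS S ℚ ≃* ι.range := MonoidHom.ofInjective hinj
    let Φ : ↥A₁ →* (ZMod (p ^ (m + 1)))ˣ :=
      Ψ.comp (ιe.symm.toMonoidHom.comp ((normG.comp A₁.subtype).codRestrict ι.range hrange))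
    have hΦ : ∀ (c : ↥A₁) (y : CS S ℚ), ι y = normG (c : CS S L) → Φ c = Ψ y := by
      intro c y hy
      change Ψ (ιe.symm ⟨normG (c : CS S L), hrange c⟩) = Ψ y
      congr 1
      apply ιe.injective
      rw [MulEquiv.apply_symm_apply]
      apply Subtype.ext
      rw [MonoidHom.ofInjective_apply]
      exact hy.symm
    -- (1) norms from `L^{N ∩ ker θ}` are killed by `Φ`
    set W : Subgroup G := θ.ker ⊓ N with hW
    have hWV : W.subgroupOf N = V := Subgroup.inf_subgroupOf_right θ.ker N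
    have hle : (A₂.map nm).subgroupOf A₁ ≤ Φ.ker := by
      intro c hc
      rw [Subgroup.mem_subgroupOf] at hc
      obtain ⟨b, hb, hbc⟩ := hc
      rw [MonoidHom.mem_ker]
      have hbW : ∀ w ∈ W, w • b = b := fun w hw =>
        (hA₂mem b).1 hb w hw.2 (MonoidHom.mem_ker.1 hw.1)
      set z : CS S L := ∏ᶠ t : ↥θ.ker ⧸ W.subgroupOf θ.ker, (((t.out : ↥θ.ker) : G)) • b with hz
      have hz' : z = relNormHom (G := ↥θ.ker) (W.subgroupOf θ.ker) b := rfl
      have hzinv : ∀ v : G, θ v = 1 → v • z = z := by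
        intro v hv
        have h1 := smul_relNormHom (G := ↥θ.ker) (W.subgroupOf θ.ker) (c := b)
          (fun w hw => hbW (w : G) (Subgroup.mem_subgroupOf.1 hw)) ⟨v, MonoidHom.mem_ker.2 hv⟩
        rw [← hz'] at h1
        exact h1
      obtain ⟨y, hy⟩ := hdesc _ (hnormGinv c.1 c.2)
      rw [hΦ c y hy]
      apply hker z hzinv y
      rw [hy, ← hbc, hnm b hb, hnormG]
      have e1 := relNormHom_trans (W := W) (H := N) inf_le_right hbW
      have e2 := relNormHom_trans (W := W) (H := θ.ker) inf_le_left hbW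
      rw [hWV] at e1
      rw [← e1, e2]
      rfl
    -- (2) the value of `Φ` on the class of `X` has order at least `p^(m-i)`
    have hXmem : CS.mk S L X ∈ A₁ := by
      rw [hA₁mem]
      intro n hn
      rw [CS.smul_mk, hX n hn]
    have hΦX : Φ ⟨CS.mk S L X, hXmem⟩ = psiQ p m Y := by
      rw [hΦ ⟨CS.mk S L X, hXmem⟩ (CS.mk S ℚ Y), hΨ]
      change CS.map S (algebraMap ℚ L) (CS.mk S ℚ Y) = relNormHom N (CS.mk S L X)
      rw [CS.map_mk, ← hXY, relNormHom_apply, MonoidHom.map_finprod _ (Set.toFinite _)]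
      rfl
    set x := psiQ p m Y with hx
    have hxpow : x ^ p ^ (m - i - 1) ≠ 1 := by
      have h1 : ((x : (ZMod (p ^ (m + 1)))ˣ) : ZMod (p ^ (m + 1))).val ≡ 1 [MOD p] := by
        have h2 := unitsMap_psiQ p (Nat.zero_le m) Y
        rw [psiQ_zero, unitsMap_eq_one_iff] at h2
        simpa using h2
      have h3 := natCast_pow_ne_one hp2 (M := m + 1) (j := i + 1) (by omega) h1 hY
      rw [ZMod.natCast_zmod_val] at h3
      intro h4
      apply h3
      have h5 : m + 1 - (i + 1) - 1 = m - i - 1 := by omega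
      rw [h5, ← Units.val_pow_eq_pow_val, h4, Units.val_one]
    have hxord : p ^ (m - i) ∣ orderOf x := by
      have h1 : orderOf x ∣ p ^ m := orderOf_dvd_of_pow_eq_one (psiQ_pow_eq_one p m Y)
      obtain ⟨k, hk, hk'⟩ := (Nat.dvd_prime_pow hp.out).1 h1
      rw [hk']
      apply pow_dvd_pow
      by_contra hlt
      apply hxpow
      have h2 : k ≤ m - i - 1 := by omega
      have h3 : orderOf x ∣ p ^ (m - i - 1) := by
        rw [hk']
        exact pow_dvd_pow p h2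
      exact orderOf_dvd_iff_pow_eq_one.1 h3
    have hdvd : p ^ (m - i) ∣ Φ.ker.index := by
      rw [Subgroup.index_ker]
      refine hxord.trans ?_
      have h1 : x ∈ Φ.range := ⟨_, hΦX⟩
      have h2 := Subgroup.orderOf_dvd_natCard Φ.range h1
      exact h2
    -- hence `ker Φ` is exactly the group of norms
    have hidx' : ((A₂.map nm).subgroupOf A₁).index = p ^ (m - i) := hC5a
    have hkeq : Φ.ker ≤ (A₂.map nm).subgroupOf A₁ := by
      have h1 := Subgroup.relIndex_mul_index hle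
      have h2 : Φ.ker.index = p ^ (m - i) := by
        apply Nat.dvd_antisymm _ hdvd
        rw [← hidx']
        exact Subgroup.index_dvd_of_le hle
      rw [hidx', h2] at h1
      have hpos : 0 < p ^ (m - i) := pow_pos hp.out.pos _
      have h3 : ((A₂.map nm).subgroupOf A₁).relIndex Φ.ker = 1 :=
        Nat.eq_of_mul_eq_mul_right hpos (h1.trans (one_mul _).symm)
      exact Subgroup.relIndex_eq_one.1 h3
    -- (3) `ι a` is killed by `Φ`
    have hamem : ι a ∈ A₁ := by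
      rw [hA₁mem]
      intro n _
      exact hιinv n a
    have hΦa : (⟨ι a, hamem⟩ : ↥A₁) ∈ Φ.ker := by
      rw [MonoidHom.mem_ker, hΦ ⟨ι a, hamem⟩ (a ^ N.index)]
      · rw [map_pow]
        obtain ⟨x₀, rfl⟩ := CS.mk_surjective S a
        rw [hΨ]
        obtain ⟨d, hd⟩ := hNm
        rw [hd, pow_mul, psiQ_pow_eq_one, one_pow]
      · change ι (a ^ N.index) = relNormHom N (ι a)
        rw [relNormHom_of_invariant N (fun g => hιinv g a), map_pow]
    obtain ⟨b, hb, hba⟩ := Subgroup.mem_subgroupOf.1 (hkeq hΦa)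
    refine ⟨b, (hA₂mem b).1 hb, ?_⟩
    rw [← hnm b hb]
    exact hba

end Main

end PsiNorm

end

end Fermat.Agent.CFT.Global
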