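/-
P4 / Layer C5-e (sub-lemmas of P5): the abstract counting step and the arithmetic of the groups
`Z_m = ⟨1 + p⟩ ≤ (ℤ/p^(m+1))ˣ` under the reductions `(ℤ/p^(m+1))ˣ → (ℤ/p^(i+1))ˣ`.

* `ker_le_of_index_eq_of_dvd_orderOf`, `ker_eq_of_index_eq_of_dvd_orderOf` : (iv) if `B ≤ ker f` has
  index `p ^ t` and some `f c` has order divisible by `p ^ t`, then `ker f = B`;
* `unitsMap_oneAddP`, `unitsMap_eq_one_iff_pow_eq_one` : (iii) for `y ∈ Z_m`, `i ≤ m`: the reduction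
  of `y` mod `p^(i+1)` is `1` iff `y ^ p^(m-i) = 1`;
* `unitsMap_psiQ` : `psiQ p i` is the reduction of `psiQ p m` (`i ≤ m`);
* `psiQ_eq_one_iff_pow_eq_one`, `pow_dvd_orderOf_psiQ` : `psiQ p (s+1) x ≠ 1 ⇒ p^(m-s) ∣ orderOf (psiQ p m x)`.
-/
import Fermat.Agent.Lib.CFT.Global.Recip.PsiKernel

set_option autoImplicit false
set_option linter.unusedSectionVars false
set_option linter.style.haveILetI false

namespace Fermat.Agent.CFT.Global

noncomputable section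

/-! ## The abstract counting step -/

section Count

variable {A Z : Type*} [CommGroup A] [Group Z] {p t : ℕ} [hp : Fact p.Prime]

/-- **(iv)** if `B ≤ ker f` has index `p ^ t` and the order of some `f c` is divisible by `p ^ t`,
then `ker f ≤ B` -/
theorem ker_le_of_index_eq_of_dvd_orderOf (B : Subgroup A) (hB : B.index = p ^ t) (f : A →* Z)
    (hBf : B ≤ f.ker) (c : A) (hc : p ^ t ∣ orderOf (f c)) : f.ker ≤ B := by
  have hpos : 0 < p ^ t := pow_pos hp.out.pos t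
  haveI : Finite (A ⧸ B) := by
    apply Nat.finite_of_card_ne_zero
    rw [← Subgroup.index_eq_card, hB]
    exact hpos.ne'
  have hcard : Nat.card (A ⧸ B) = p ^ t := by rw [← Subgroup.index_eq_card, hB]
  set g : A ⧸ B →* Z := QuotientGroup.lift B f hBf with hg
  set cb : A ⧸ B := (c : A ⧸ B) with hcb
  have hgc : g cb = f c := rfl
  -- the order of `c̄` is `p ^ t`
  have h1 : orderOf (f c) ∣ orderOf cb := by
    rw [← hgc]
    exact orderOf_map_dvd g cb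
  have h2 : orderOf cb ∣ p ^ t := by
    rw [← hcard]
    exact orderOf_dvd_natCard cb
  have hord : orderOf cb = p ^ t := Nat.dvd_antisymm h2 (hc.trans h1)
  have hordf : orderOf (f c) = p ^ t := Nat.dvd_antisymm (h1.trans h2) hc
  have htop : Subgroup.zpowers cb = ⊤ := by
    apply Subgroup.eq_top_of_card_eq
    rw [Nat.card_zpowers, hord, hcard]
  intro x hx
  have hxb : (x : A ⧸ B) ∈ Subgroup.zpowers cb := by rw [htop]; exact Subgroup.mem_top _
  obtain ⟨i, hi⟩ := Subgroup.mem_zpowers_iff.1 hxb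
  have h3 : (f c) ^ i = 1 := by
    rw [← hgc, ← map_zpow, hi]
    exact MonoidHom.mem_ker.1 hx
  have h4 : ((p ^ t : ℕ) : ℤ) ∣ i := by
    rw [← hordf]
    exact orderOf_dvd_iff_zpow_eq_one.2 h3
  have h5 : cb ^ i = 1 := by
    rw [← hord] at h4
    exact orderOf_dvd_iff_zpow_eq_one.1 h4
  rw [hi] at h5
  exact (QuotientGroup.eq_one_iff x).1 h5

theorem ker_eq_of_index_eq_of_dvd_orderOf (B : Subgroup A) (hB : B.index = p ^ t) (f : A →* Z)
    (hBf : B ≤ f.ker) (c : A) (hc : p ^ t ∣ orderOf (f c)) : f.ker = B :=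
  le_antisymm (ker_le_of_index_eq_of_dvd_orderOf B hB f hBf c hc) hBf

/-- in a group, if `y ^ p^n = 1` and `y ^ p^j ≠ 1` then `p^(j+1)` divides the order of `y` -/
theorem pow_succ_dvd_orderOf_of_pow_ne_one {G : Type*} [Group G] {y : G} {n j : ℕ}
    (hy : y ^ p ^ n = 1) (hne : y ^ p ^ j ≠ 1) : p ^ (j + 1) ∣ orderOf y := by
  obtain ⟨k, -, hk⟩ := (Nat.dvd_prime_pow hp.out).1 (orderOf_dvd_of_pow_eq_one hy)
  rw [hk]
  apply pow_dvd_pow
  by_contra hlt
  rw [not_le, Nat.lt_succ_iff] at hlt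
  apply hne
  apply orderOf_dvd_iff_pow_eq_one.1
  rw [hk]
  exact pow_dvd_pow p hlt

end Count

/-! ## The groups `Z_m` under the reductions -/

section Red

variable {p : ℕ} [hp : Fact p.Prime]

/-- the reduction of `1 + p` is `1 + p` -/
theorem unitsMap_oneAddP {i m : ℕ} (h : p ^ (i + 1) ∣ p ^ (m + 1)) :
    ZMod.unitsMap h (oneAddP p m) = oneAddP p i := by
  apply Units.ext
  rw [coe_oneAddP, ZMod.unitsMap_def, Units.coe_map, coe_oneAddP]
  simp only [MonoidHom.coe_coe, map_add, map_one, map_natCast]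

/-- **(iii)** for `y ∈ Z_m` and `i ≤ m`: `y ≡ 1 mod p^(i+1)` iff `y ^ p^(m-i) = 1` -/
theorem unitsMap_eq_one_iff_pow_eq_one (hp2 : p ≠ 2) {i m : ℕ} (hi : i ≤ m)
    (h : p ^ (i + 1) ∣ p ^ (m + 1)) {y : (ZMod (p ^ (m + 1)))ˣ}
    (hy : y ∈ Subgroup.zpowers (oneAddP p m)) :
    ZMod.unitsMap h y = 1 ↔ y ^ p ^ (m - i) = 1 := by
  obtain ⟨k, rfl⟩ := Subgroup.mem_zpowers_iff.1 hy
  rw [map_zpow, unitsMap_oneAddP, ← orderOf_dvd_iff_zpow_eq_one, orderOf_oneAddP i hp2,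
    ← zpow_natCast, ← zpow_mul, ← orderOf_dvd_iff_zpow_eq_one, orderOf_oneAddP m hp2]
  obtain ⟨d, rfl⟩ := Nat.exists_eq_add_of_le hi
  rw [Nat.add_sub_cancel_left, pow_add]
  push_cast
  have hd : ((p : ℤ) ^ d) ≠ 0 := pow_ne_zero _ (by exact_mod_cast hp.out.ne_zero)
  rw [mul_comm k, mul_comm ((p : ℤ) ^ i)]
  exact (mul_dvd_mul_iff_left hd).symm

/-- `psiQ p i` is the reduction of `psiQ p m` for `i ≤ m` -/
theorem unitsMap_psiQ (hp2 : p ≠ 2) {i m : ℕ} (hi : i ≤ m) (h : p ^ (i + 1) ∣ p ^ (m + 1))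
    (x : FinIdele ℚ) : ZMod.unitsMap h (psiQ p m x) = psiQ p i x := by
  obtain ⟨d, rfl⟩ := Nat.exists_eq_add_of_le hi
  induction d with
  | zero =>
    have : ZMod.unitsMap h = MonoidHom.id _ := ZMod.unitsMap_self _
    rw [this]
    rfl
  | succ d ih =>
    have h' : p ^ (i + 1) ∣ p ^ (i + d + 1) := pow_dvd_pow p (by omega)
    have h1 := ZMod.unitsMap_comp h' (pow_dvd_pow p (Nat.le_succ (i + d + 1)))
    have h2 : ZMod.unitsMap h = (ZMod.unitsMap h').comp (redUnits p (i + d)) := h1.symm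
    rw [h2, MonoidHom.comp_apply]
    have h3 : redUnits p (i + d) (psiQ p (i + (d + 1)) x) = psiQ p (i + d) x :=
      redUnits_psiQ (i + d) hp2 x
    rw [h3]
    exact ih (Nat.le_add_right i d) h'

/-- `psiQ p i x = 1` iff `psiQ p m x ^ p^(m-i) = 1` (`i ≤ m`) -/
theorem psiQ_eq_one_iff_pow_eq_one (hp2 : p ≠ 2) {i m : ℕ} (hi : i ≤ m) (x : FinIdele ℚ) :
    psiQ p i x = 1 ↔ psiQ p m x ^ p ^ (m - i) = 1 := by
  have h : p ^ (i + 1) ∣ p ^ (m + 1) := pow_dvd_pow p (Nat.succ_le_succ hi)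
  rw [← unitsMap_psiQ hp2 hi h x]
  exact unitsMap_eq_one_iff_pow_eq_one hp2 hi h (psiQ_mem_zpowers m hp2 x)

/-- if `psiQ p (s+1) x ≠ 1` then the order of `psiQ p m x` is divisible by `p^(m-s)` -/
theorem pow_dvd_orderOf_psiQ (hp2 : p ≠ 2) {s m : ℕ} (hs : s + 1 ≤ m) (x : FinIdele ℚ)
    (hx : psiQ p (s + 1) x ≠ 1) : p ^ (m - s) ∣ orderOf (psiQ p m x) := by
  have h1 : psiQ p m x ^ p ^ (m - (s + 1)) ≠ 1 := fun h =>
    hx ((psiQ_eq_one_iff_pow_eq_one hp2 hs x).2 h)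
  have h2 := pow_succ_dvd_orderOf_of_pow_ne_one (p := p) (psiQ_pow_eq_one m hp2 x) h1
  have h3 : m - (s + 1) + 1 = m - s := by omega
  rwa [h3] at h2

end Red

end

end Fermat.Agent.CFT.Global
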