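/-
P4 / Layer C5-PSI: the group `Z_n = ⟨1 + p⟩ ≤ (ℤ/p^(n+1))ˣ` (`p` odd): cyclic of order `p^n`,
contains all `(p-1)`-th powers, compatible with the reductions `(ℤ/p^(n+2))ˣ → (ℤ/p^(n+1))ˣ`.
-/
import Mathlib

set_option autoImplicit false
set_option linter.unusedSectionVars false
set_option linter.style.haveILetI false

namespace Fermat.Agent.CFT.Global

noncomputable section

variable (p : ℕ) [hp : Fact p.Prime] (n : ℕ)

instance neZero_pow_succ : NeZero (p ^ (n + 1)) := ⟨(pow_pos hp.out.pos _).ne'⟩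

/-- `1 + p` as a unit of `ℤ/p^(n+1)` -/
def oneAddP : (ZMod (p ^ (n + 1)))ˣ :=
  ZMod.unitOfCoprime (1 + p) (Nat.Coprime.pow_right _ (by
    rw [Nat.coprime_add_self_left]
    exact Nat.coprime_one_left p))

@[simp] lemma coe_oneAddP : ((oneAddP p n : (ZMod (p ^ (n + 1)))ˣ) : ZMod (p ^ (n + 1))) = 1 + p := by
  rw [oneAddP, ZMod.coe_unitOfCoprime]
  push_cast
  rfl

variable {p}

lemma orderOf_oneAddP (hp2 : p ≠ 2) : orderOf (oneAddP p n) = p ^ n := by
  rw [← orderOf_units, coe_oneAddP]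
  exact ZMod.orderOf_one_add_prime hp.out hp2 n

lemma card_units_zmod_pow : Nat.card (ZMod (p ^ (n + 1)))ˣ = p ^ n * (p - 1) := by
  rw [Nat.card_eq_fintype_card, ZMod.card_units_eq_totient,
    Nat.totient_prime_pow hp.out (Nat.succ_pos n), Nat.succ_sub_one]

lemma pow_pred_pow_eq_one (x : (ZMod (p ^ (n + 1)))ˣ) : (x ^ (p - 1)) ^ p ^ n = 1 := by
  rw [← pow_mul, mul_comm, ← card_units_zmod_pow]
  exact pow_card_eq_one'

/-- every element killed by `p^n` is a power of `1 + p` -/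
lemma mem_zpowers_oneAddP_of_pow_eq_one (hp2 : p ≠ 2) {y : (ZMod (p ^ (n + 1)))ˣ}
    (hy : y ^ p ^ n = 1) : y ∈ Subgroup.zpowers (oneAddP p n) := by
  classical
  haveI : IsCyclic (ZMod (p ^ (n + 1)))ˣ := ZMod.isCyclic_units_of_prime_pow p hp.out hp2 (n + 1)
  have hpos : 0 < p ^ n := pow_pos hp.out.pos n
  have hle := IsCyclic.card_pow_eq_one_le (α := (ZMod (p ^ (n + 1)))ˣ) hpos
  set T : Finset (ZMod (p ^ (n + 1)))ˣ := {a | a ^ p ^ n = 1} with hT
  -- the powers of `1 + p` form a subset of `T` with `p^n` elements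
  have hsub : ((Subgroup.zpowers (oneAddP p n) : Set (ZMod (p ^ (n + 1)))ˣ)).toFinset ⊆ T := by
    intro z hz
    rw [Set.mem_toFinset, SetLike.mem_coe] at hz
    rw [hT, Finset.mem_filter]
    refine ⟨Finset.mem_univ _, ?_⟩
    obtain ⟨m, rfl⟩ := Subgroup.mem_zpowers_iff.1 hz
    rw [← zpow_natCast, ← zpow_mul, mul_comm, zpow_mul, zpow_natCast, ← orderOf_oneAddP n hp2,
      pow_orderOf_eq_one, one_zpow]
  have hcard : ((Subgroup.zpowers (oneAddP p n) : Set (ZMod (p ^ (n + 1)))ˣ)).toFinset.card =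
      p ^ n := by
    rw [Set.toFinset_card, ← Nat.card_eq_fintype_card]
    exact (Nat.card_zpowers _).trans (orderOf_oneAddP n hp2)
  have heq := Finset.eq_of_subset_of_card_le hsub (by rw [hcard]; exact hle)
  have hyT : y ∈ T := by
    rw [hT, Finset.mem_filter]
    exact ⟨Finset.mem_univ _, hy⟩
  rw [← heq, Set.mem_toFinset] at hyT
  exact hyT

/-- `(p-1)`-th powers are powers of `1 + p` -/
lemma pow_pred_mem_zpowers_oneAddP (hp2 : p ≠ 2) (x : (ZMod (p ^ (n + 1)))ˣ) :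
    x ^ (p - 1) ∈ Subgroup.zpowers (oneAddP p n) :=
  mem_zpowers_oneAddP_of_pow_eq_one n hp2 (pow_pred_pow_eq_one n x)

/-- `(1 + p)^(p-1)` still has order `p^n` -/
lemma orderOf_oneAddP_pow_pred (hp2 : p ≠ 2) : orderOf (oneAddP p n ^ (p - 1)) = p ^ n := by
  have hcop : Nat.Coprime (orderOf (oneAddP p n)) (p - 1) := by
    rw [orderOf_oneAddP n hp2]
    apply Nat.Coprime.pow_left
    have h2 := hp.out.two_le
    exact (Nat.Prime.coprime_iff_not_dvd hp.out).2
      (Nat.not_dvd_of_pos_of_lt (by omega) (by omega))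
  rw [(Nat.Coprime.orderOf_pow hcop), orderOf_oneAddP n hp2]

variable (p)

/-- the reduction `(ℤ/p^(n+2))ˣ → (ℤ/p^(n+1))ˣ` -/
def redUnits : (ZMod (p ^ (n + 2)))ˣ →* (ZMod (p ^ (n + 1)))ˣ :=
  ZMod.unitsMap (pow_dvd_pow p (Nat.le_succ (n + 1)))

lemma redUnits_oneAddP : redUnits p n (oneAddP p (n + 1)) = oneAddP p n := by
  apply Units.ext
  rw [coe_oneAddP, redUnits, ZMod.unitsMap_def, Units.coe_map, coe_oneAddP]
  simp only [MonoidHom.coe_coe, map_add, map_one, map_natCast]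

end

end Fermat.Agent.CFT.Global
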